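import Fermat.Agent.G1.IG3.AbsDefs

/-!
# G1-IG3: invariant polynomials, Lagrange interpolation, fibre polynomials
-/

set_option autoImplicit false

namespace Fermat.Agent.G1.IG3

open Polynomial

section General

variable {Γ : Type*} [Group Γ] {𝒮 𝔉 𝔸 𝔏 : Type*} [CommRing 𝒮] [CommRing 𝔉] [CommRing 𝔸] [CommRing 𝔏]
  {act : Γ → 𝔉 →+* 𝔉} {fst : 𝒮 →+* 𝔉} {red : 𝒮 →+* 𝔏} {e : 𝔸 →+* 𝔏}

/-- a polynomial over `𝒮` whose function part is invariant is defined over the base ring.
PROOF: coefficientwise `hInv`; `Polynomial.lifts_iff_coeff_lifts` / `Polynomial.mem_lifts`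
(`(Q.map red).coeff k = red (Q.coeff k)`; `congrArg (coeff · k) (h γ)` with `coeff_map`). -/
theorem exists_of_invariant (hInv : Inv act fst red e) (Q : 𝒮[X])
    (h : ∀ γ, (Q.map fst).map (act γ) = Q.map fst) : ∃ G : 𝔸[X], G.map e = Q.map red := by
  rw [← Polynomial.mem_lifts, Polynomial.lifts_iff_coeff_lifts]
  intro k
  rw [coeff_map]
  refine hInv _ (fun γ => ?_)
  have h1 := congrArg (fun p => p.coeff k) (h γ)
  simpa only [coeff_map] using h1

/-- the characteristic polynomial of an equivariant family.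
PROOF: `exists_of_invariant` for `Q = ∏ i, (X - C (α i))`; `Polynomial.map_prod`, `hα`,
`Equiv.prod_comp (MulAction.toPerm γ)`.  (Copy of `S28.sym_prod`, file `Fermat/Agent/S28/An/Sym.lean`.) -/
theorem exists_prod (hInv : Inv act fst red e) {I : Type*} [Fintype I] [MulAction Γ I]
    (α : I → 𝒮) (hα : Eqv act fst α) :
    ∃ A : 𝔸[X], A.map e = ∏ i, (X - C (red (α i))) := by
  obtain ⟨W, hW⟩ := exists_of_invariant hInv (∏ i, (X - C (α i))) (by
    intro γ
    simp only [Polynomial.map_prod, Polynomial.map_sub, Polynomial.map_X, Polynomial.map_C]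
    simp only [hα γ]
    exact Equiv.prod_comp (MulAction.toPerm γ) (fun i => (X - C (fst (α i)) : 𝔉[X])))
  refine ⟨W, hW.trans ?_⟩
  simp only [Polynomial.map_prod, Polynomial.map_sub, Polynomial.map_X, Polynomial.map_C]

/-- Lagrange interpolation of a second equivariant family.
PROOF: `exists_of_invariant` for `Q = ∑ i, C (c i) * ∏ k ∈ univ.erase i, (X - C (α k))`.
(Copy of `S28.sym_interp`, file `Fermat/Agent/S28/An/Sym.lean`, with `perm γ = MulAction.toPerm γ`.) -/
theorem exists_lagrange (hInv : Inv act fst red e) {I : Type*} [Fintype I] [DecidableEq I]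
    [MulAction Γ I] (α c : I → 𝒮) (hα : Eqv act fst α) (hc : Eqv act fst c) :
    ∃ G : 𝔸[X], G.map e =
      ∑ i, C (red (c i)) * ∏ k ∈ Finset.univ.erase i, (X - C (red (α k))) := by
  obtain ⟨W, hW⟩ := exists_of_invariant hInv
      (∑ i, C (c i) * ∏ k ∈ Finset.univ.erase i, (X - C (α k))) (by
    intro γ
    simp only [Polynomial.map_sum, Polynomial.map_mul, Polynomial.map_prod, Polynomial.map_sub,
      Polynomial.map_X, Polynomial.map_C]
    simp only [hα γ, hc γ]
    set φ : I → 𝔉[X] := fun i => (X - C (fst (α i)) : 𝔉[X]) with hφ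
    set ψ : I → 𝔉[X] := fun i => (C (fst (c i)) : 𝔉[X]) with hψ
    have h3 : ∀ i, ∏ k ∈ Finset.univ.erase i, φ (γ • k) =
        ∏ k ∈ Finset.univ.erase (γ • i), φ k := by
      intro i
      refine Finset.prod_bij (fun k _ => γ • k) ?_ ?_ ?_ ?_
      · intro k hk
        simp only [Finset.mem_erase, Finset.mem_univ, and_true] at hk ⊢
        exact fun h => hk (MulAction.injective γ h)
      · intro k _ k' _ h
        exact MulAction.injective γ h
      · intro k hk
        refine ⟨γ⁻¹ • k, ?_, by simp⟩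
        simp only [Finset.mem_erase, Finset.mem_univ, and_true] at hk ⊢
        intro h
        exact hk (by rw [← h]; simp)
      · intro k _
        rfl
    have h4 : ∀ i, ψ (γ • i) * ∏ k ∈ Finset.univ.erase i, φ (γ • k) =
        ψ (γ • i) * ∏ k ∈ Finset.univ.erase (γ • i), φ k := fun i => by rw [h3]
    change ∑ i, ψ (γ • i) * ∏ k ∈ Finset.univ.erase i, φ (γ • k) =
      ∑ i, ψ i * ∏ k ∈ Finset.univ.erase i, φ k
    simp only [h4]
    exact Equiv.sum_comp (MulAction.toPerm γ)
      (fun i => ψ i * ∏ k ∈ Finset.univ.erase i, φ k))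
  refine ⟨W, hW.trans ?_⟩
  simp only [Polynomial.map_sum, Polynomial.map_mul, Polynomial.map_prod, Polynomial.map_sub,
    Polynomial.map_X, Polynomial.map_C]

/-- the coefficients of the "fibre polynomials" of an invariant relation form equivariant families.
PROOF: `fst (coeff k P) = coeff k (P.map fst)`, same for `act γ`; `Polynomial.map_prod`; `ha`; then
`Finset.prod_bij (fun x _ => γ • x)` between `univ.filter (ρ i)` and `univ.filter (ρ (γ • i))` (surjectivity: `γ⁻¹ • x`,
`hρ γ i (γ⁻¹ • x)` with `smul_inv_smul`). -/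
theorem eqv_fiber {I X' : Type*} [MulAction Γ I] [MulAction Γ X'] [Fintype X']
    (ρ : I → X' → Prop) [∀ i, DecidablePred (ρ i)]
    (hρ : ∀ (γ : Γ) (i : I) (x : X'), ρ (γ • i) (γ • x) ↔ ρ i x)
    (a : X' → 𝒮) (ha : Eqv act fst a) (k : ℕ) :
    Eqv act fst (fun i => (∏ x ∈ Finset.univ.filter (ρ i), (X - C (a x))).coeff k) := by
  intro γ i
  simp only
  rw [← coeff_map, ← coeff_map, ← coeff_map]
  congr 1
  simp only [Polynomial.map_prod, Polynomial.map_sub, Polynomial.map_X, Polynomial.map_C]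
  simp only [ha γ]
  refine Finset.prod_bij (fun x _ => γ • x) ?_ ?_ ?_ ?_
  · intro x hx
    simp only [Finset.mem_filter, Finset.mem_univ, true_and] at hx ⊢
    exact (hρ γ i x).2 hx
  · intro x _ x' _ h
    exact MulAction.injective γ h
  · intro x hx
    simp only [Finset.mem_filter, Finset.mem_univ, true_and] at hx
    refine ⟨γ⁻¹ • x, ?_, by simp⟩
    simp only [Finset.mem_filter, Finset.mem_univ, true_and]
    have := hρ γ i (γ⁻¹ • x)
    rw [smul_inv_smul] at this
    exact this.1 hx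
  · intro x _
    rfl

end General

section Field

variable {Γ : Type*} [Group Γ] {𝒮 𝔉 : Type*} [CommRing 𝒮] [CommRing 𝔉]
  {act : Γ → 𝔉 →+* 𝔉} {fst : 𝒮 →+* 𝔉}
  {𝕂 𝕃 : Type*} [Field 𝕂] [Field 𝕃] [Algebra 𝕂 𝕃] {red : 𝒮 →+* 𝕃}

/-- every member of an equivariant family is integral over `𝕂` (root of `exists_prod`, which is monic). -/
theorem isIntegral_red (hInv : Inv act fst red (algebraMap 𝕂 𝕃)) {I : Type*} [Fintype I]
    [MulAction Γ I] (α : I → 𝒮) (hα : Eqv act fst α) (i : I) : IsIntegral 𝕂 (red (α i)) := by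
  obtain ⟨A, hA⟩ := exists_prod hInv α hα
  have hmon : (∏ i, (X - C (red (α i))) : 𝕃[X]).Monic :=
    monic_prod_of_monic _ _ (fun j _ => monic_X_sub_C _)
  have hA0 : A ≠ 0 := by
    rintro rfl
    rw [Polynomial.map_zero] at hA
    exact hmon.ne_zero hA.symm
  refine (isAlgebraic_iff_isIntegral).1 ⟨A, hA0, ?_⟩
  rw [aeval_def, ← eval_map, hA, eval_prod]
  exact Finset.prod_eq_zero (Finset.mem_univ i) (by simp)

end Field

end Fermat.Agent.G1.IG3
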