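import Mathlib

/-!
# G1-IG3 (Igusa for `Γ₁(M)`, PROOF 3): the transfer lemma (pure field theory)
-/

set_option autoImplicit false

namespace Fermat.Agent.G1.IG3

open Polynomial

theorem Transfer_isCoprime_X_sub_C {𝕃 : Type*} [Field 𝕃] (a : 𝕃) (ν : 𝕃[X]) :
    IsCoprime ν (X - C a) ↔ ν.eval a ≠ 0 := by
  rw [isCoprime_comm, (irreducible_X_sub_C a).coprime_iff_not_dvd, dvd_iff_isRoot]
  rfl

/-- coprimality with a split polynomial.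
PROOF: `IsCoprime.prod_right_iff`; `IsCoprime ν (X - C a) ↔ ν.eval a ≠ 0`
(`(irreducible_X_sub_C a).coprime_iff_not_dvd'` / `dvd_iff_isRoot`, or Bezout evaluated at `a`
for `→` and `ν = (X - C a) * q + C (ν.eval a)` (`Polynomial.mul_divByMonic_eq_iff_isRoot`,
`X_sub_C_mul_divByMonic_eq_sub_modByMonic`, `modByMonic_X_sub_C_eq_C_eval`) for `←`). -/
theorem isCoprime_prod_X_sub_C {𝕃 : Type*} [Field 𝕃] {ι : Type*} (s : Finset ι) (θ : ι → 𝕃)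
    (ν : 𝕃[X]) :
    IsCoprime ν (∏ z ∈ s, (X - C (θ z))) ↔ ∀ z ∈ s, ν.eval (θ z) ≠ 0 := by
  rw [IsCoprime.prod_right_iff]
  exact forall₂_congr fun z _ => Transfer_isCoprime_X_sub_C (θ z) ν

/-- **Transfer.**  `a₀, a₁` conjugate over `𝕂`; `Ψ₀, Ψ₁ ∈ 𝕃[Z]` are given by the SAME rational
expressions `G k / B` in `a₀`, resp. `a₁`.  Then for `ν ∈ 𝕂[Z]`: `ν` is coprime to `Ψ₀` iff it is
coprime to `Ψ₁`.
PROOF: `m := minpoly 𝕂 a₀` is irreducible (`minpoly.irreducible h₀`), `E := AdjoinRoot m` is a field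
(`Fact (Irreducible m)`), `φ₀ φ₁ : E →+* 𝕃 := AdjoinRoot.lift (algebraMap 𝕂 𝕃) a_j (…)`
(`minpoly.aeval`, for `a₁` rewrite with `hmin`; `eval₂_eq_eval_map`/`aeval_def`).
`φ_j (aeval (AdjoinRoot.root m) P) = aeval a_j P` for `P : 𝕂[X]` (`AdjoinRoot.lift_mk`, `AdjoinRoot.aeval_eq`).
`w := AdjoinRoot.mk m B ≠ 0` because `φ₀ w = aeval a₀ B ≠ 0`; so `aeval a₁ B = φ₁ w ≠ 0`.
`Ψ_E := ∑ k ∈ range (max Ψ₀.natDegree Ψ₁.natDegree + 1), C (mk m (G k) / w) * X ^ k`; then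
`Ψ_E.map φ_j = Ψ_j` (coefficientwise: for `k` in the range use `hG_j`; outside both coefficients vanish).
`(ν.map (algebraMap 𝕂 E)).map φ_j = ν.map (algebraMap 𝕂 𝕃)` (`Polynomial.map_map`, `AdjoinRoot.lift_of`).
Conclude with `Polynomial.isCoprime_map φ_j` twice. -/
theorem transfer {𝕂 𝕃 : Type*} [Field 𝕂] [Field 𝕃] [Algebra 𝕂 𝕃] (a₀ a₁ : 𝕃)
    (h₀ : IsIntegral 𝕂 a₀) (hmin : minpoly 𝕂 a₀ = minpoly 𝕂 a₁)
    (B : 𝕂[X]) (hB : aeval a₀ B ≠ 0) (Ψ₀ Ψ₁ : 𝕃[X]) (G : ℕ → 𝕂[X])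
    (hG₀ : ∀ k, aeval a₀ (G k) = aeval a₀ B * Ψ₀.coeff k)
    (hG₁ : ∀ k, aeval a₁ (G k) = aeval a₁ B * Ψ₁.coeff k) (ν : 𝕂[X]) :
    IsCoprime (ν.map (algebraMap 𝕂 𝕃)) Ψ₀ ↔ IsCoprime (ν.map (algebraMap 𝕂 𝕃)) Ψ₁ := by
  set m := minpoly 𝕂 a₀ with hm
  have : Fact (Irreducible m) := ⟨minpoly.irreducible h₀⟩
  have hr₀ : m.eval₂ (algebraMap 𝕂 𝕃) a₀ = 0 := by
    rw [← aeval_def, hm]
    exact minpoly.aeval 𝕂 a₀
  have hr₁ : m.eval₂ (algebraMap 𝕂 𝕃) a₁ = 0 := by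
    rw [← aeval_def, hmin]
    exact minpoly.aeval 𝕂 a₁
  -- the general statement for one embedding
  have key : ∀ (a : 𝕃) (hr : m.eval₂ (algebraMap 𝕂 𝕃) a = 0) (Ψ : 𝕃[X]) (ΨE : (AdjoinRoot m)[X])
      (_ : ΨE.map (AdjoinRoot.lift (algebraMap 𝕂 𝕃) a hr) = Ψ),
      IsCoprime (ν.map (algebraMap 𝕂 𝕃)) Ψ ↔ IsCoprime (ν.map (AdjoinRoot.of m)) ΨE := by
    intro a hr Ψ ΨE hΨ
    rw [← Polynomial.isCoprime_map (AdjoinRoot.lift (algebraMap 𝕂 𝕃) a hr), hΨ, Polynomial.map_map]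
    have : (AdjoinRoot.lift (algebraMap 𝕂 𝕃) a hr).comp (AdjoinRoot.of m) = algebraMap 𝕂 𝕃 := by
      ext x
      simp
    rw [this]
  have hmk : ∀ (a : 𝕃) (hr : m.eval₂ (algebraMap 𝕂 𝕃) a = 0) (P : 𝕂[X]),
      AdjoinRoot.lift (algebraMap 𝕂 𝕃) a hr (AdjoinRoot.mk m P) = aeval a P := by
    intro a hr P
    rw [AdjoinRoot.lift_mk, aeval_def]
  set w : AdjoinRoot m := AdjoinRoot.mk m B with hw
  have hw0 : w ≠ 0 := by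
    intro h
    apply hB
    rw [← hmk a₀ hr₀, ← hw, h, map_zero]
  have hB₁ : aeval a₁ B ≠ 0 := by
    rw [← hmk a₁ hr₁, ← hw]
    exact (_root_.map_ne_zero _).2 hw0
  set d := max Ψ₀.natDegree Ψ₁.natDegree + 1 with hd
  set ΨE : (AdjoinRoot m)[X] := ∑ k ∈ Finset.range d, C (AdjoinRoot.mk m (G k) / w) * X ^ k
    with hΨE
  have hmap : ∀ (a : 𝕃) (hr : m.eval₂ (algebraMap 𝕂 𝕃) a = 0) (Ψ : 𝕃[X]) (_ : aeval a B ≠ 0)
      (_ : ∀ k, aeval a (G k) = aeval a B * Ψ.coeff k) (_ : Ψ.natDegree < d),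
      ΨE.map (AdjoinRoot.lift (algebraMap 𝕂 𝕃) a hr) = Ψ := by
    intro a hr Ψ hBa hGa hdeg
    ext k
    rw [hΨE, Polynomial.map_sum, Polynomial.finsetSum_coeff]
    simp only [Polynomial.map_mul, Polynomial.map_C, Polynomial.map_pow, Polynomial.map_X,
      Polynomial.coeff_C_mul, Polynomial.coeff_X_pow, mul_ite, mul_one, mul_zero]
    rw [Finset.sum_ite_eq]
    split_ifs with hk
    · rw [map_div₀, hmk, hw, hmk, hGa k]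
      field_simp
    · rw [Finset.mem_range, not_lt] at hk
      exact (Polynomial.coeff_eq_zero_of_natDegree_lt (lt_of_lt_of_le hdeg hk)).symm
  rw [key a₀ hr₀ Ψ₀ ΨE (hmap a₀ hr₀ Ψ₀ hB hG₀ (by rw [hd]; omega)),
    key a₁ hr₁ Ψ₁ ΨE (hmap a₁ hr₁ Ψ₁ hB₁ hG₁ (by rw [hd]; omega))]

end Fermat.Agent.G1.IG3
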