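import Fermat.Agent.G1.IG3.AbsA
import Fermat.Agent.G1.IG3.Transfer

/-!
# G1-IG3: transfer for `Γ`-sets
-/

set_option autoImplicit false

namespace Fermat.Agent.G1.IG3

open Polynomial

section Field

variable {Γ : Type*} [Group Γ] {𝒮 𝔉 : Type*} [CommRing 𝒮] [CommRing 𝔉]
  {act : Γ → 𝔉 →+* 𝔉} {fst : 𝒮 →+* 𝔉}
  {𝕂 𝕃 : Type*} [Field 𝕂] [Field 𝕃] [Algebra 𝕂 𝕃] {red : 𝒮 →+* 𝕃}

/-- **Transfer for `Γ`-sets.**
PROOF: classical. `A` from `exists_prod` for `α`, `B := derivative A`; `aeval (red (α i)) B = ∏ k ∈ univ.erase i, (red (α i) - red (α k))`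
(map to `𝕃`, `derivative_prod`/ or `Polynomial.derivative_map`, `Polynomial.eval_…`; see `GR.D.Vert.derivative_eval_of_fac` in
`Fermat/Agent/GR/D/Vert/Model.lean` for the same computation); it is `≠ 0` at `i₀` by `hs`.
`Ψ i := ∏ x ∈ univ.filter (ρ i), (X - C (red (a x)))`; `G k` from `exists_lagrange` for `α` and the family of `eqv_fiber … k`:
evaluating at `red (α i)` only the term `i` survives: `aeval (red (α i)) (G k) = (Ψ i).coeff k * ∏ k ∈ erase i, …`
(`red (coeff k P) = coeff k (P.map red)`).  Apply `transfer` (integrality: `isIntegral_red`) and `isCoprime_prod_X_sub_C` on both sides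
(`eval_map_algebraMap`), then negate (`not_iff_not`, `push_neg`). -/
theorem transferG (hInv : Inv act fst red (algebraMap 𝕂 𝕃))
    {I X' : Type*} [Fintype I] [DecidableEq I] [MulAction Γ I] [Fintype X'] [MulAction Γ X']
    (α : I → 𝒮) (hα : Eqv act fst α) (a : X' → 𝒮) (ha : Eqv act fst a)
    (ρ : I → X' → Prop) (hρ : ∀ (γ : Γ) (i : I) (x : X'), ρ (γ • i) (γ • x) ↔ ρ i x)
    (i₀ i₁ : I) (hmin : minpoly 𝕂 (red (α i₀)) = minpoly 𝕂 (red (α i₁)))
    (hs : ∀ i, i ≠ i₀ → red (α i) ≠ red (α i₀)) (ν : 𝕂[X]) :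
    (∃ x, ρ i₀ x ∧ aeval (red (a x)) ν = 0) ↔ (∃ x, ρ i₁ x ∧ aeval (red (a x)) ν = 0) := by
  classical
  obtain ⟨A, hA⟩ := exists_prod hInv α hα
  have hBeval : ∀ i, aeval (red (α i)) (derivative A) =
      ∏ k ∈ Finset.univ.erase i, (red (α i) - red (α k)) := by
    intro i
    have h1 : (derivative A).map (algebraMap 𝕂 𝕃) =
        derivative (Lagrange.nodal Finset.univ (fun i => red (α i))) := by
      rw [Lagrange.nodal, ← hA, derivative_map]
    rw [aeval_def, eval₂_eq_eval_map, h1,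
      Lagrange.eval_nodal_derivative_eval_node_eq (v := fun i => red (α i)) (Finset.mem_univ i),
      Lagrange.eval_nodal]
  have hG : ∀ k : ℕ, ∃ G : 𝕂[X], G.map (algebraMap 𝕂 𝕃) =
      ∑ i, C (red ((∏ x ∈ Finset.univ.filter (ρ i), (X - C (a x))).coeff k)) *
        ∏ j ∈ Finset.univ.erase i, (X - C (red (α j))) := fun k =>
    exists_lagrange hInv α _ hα (eqv_fiber ρ hρ a ha k)
  choose G hG using hG
  have hΨ : ∀ (i : I) (k : ℕ), red ((∏ x ∈ Finset.univ.filter (ρ i), (X - C (a x))).coeff k) =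
      (∏ x ∈ Finset.univ.filter (ρ i), (X - C (red (a x)))).coeff k := by
    intro i k
    rw [← coeff_map, Polynomial.map_prod]
    simp only [Polynomial.map_sub, map_X, map_C]
  have hGeval : ∀ (i : I) (k : ℕ), aeval (red (α i)) (G k) = aeval (red (α i)) (derivative A) *
      (∏ x ∈ Finset.univ.filter (ρ i), (X - C (red (a x)))).coeff k := by
    intro i k
    rw [aeval_def, eval₂_eq_eval_map, hG, eval_finsetSum, Finset.sum_eq_single i]
    · rw [eval_mul, eval_C, eval_prod, hBeval, hΨ, mul_comm]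
      simp only [eval_sub, eval_X, eval_C]
    · intro j _ hj
      rw [eval_mul, eval_prod, Finset.prod_eq_zero (Finset.mem_erase.2 ⟨hj.symm, Finset.mem_univ i⟩),
        mul_zero]
      rw [eval_sub, eval_X, eval_C, sub_self]
    · intro h
      exact absurd (Finset.mem_univ i) h
  have hB : aeval (red (α i₀)) (derivative A) ≠ 0 := by
    rw [hBeval, Finset.prod_ne_zero_iff]
    intro k hk
    exact sub_ne_zero.2 (hs k (Finset.ne_of_mem_erase hk)).symm
  have key := transfer (red (α i₀)) (red (α i₁)) (isIntegral_red hInv α hα i₀) hmin (derivative A) hB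
    (∏ x ∈ Finset.univ.filter (ρ i₀), (X - C (red (a x))))
    (∏ x ∈ Finset.univ.filter (ρ i₁), (X - C (red (a x)))) G (hGeval i₀) (hGeval i₁) ν
  rw [isCoprime_prod_X_sub_C, isCoprime_prod_X_sub_C] at key
  simp only [Finset.mem_filter, Finset.mem_univ, true_and, eval_map_algebraMap] at key
  rw [← not_iff_not]
  push Not
  exact key

end Field

end Fermat.Agent.G1.IG3
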