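import Fermat.Agent.G1.IG3.AbsB

/-!
# G1-IG3: the abstract theorem
-/

set_option autoImplicit false

namespace Fermat.Agent.G1.IG3

open Polynomial

section Field

variable {Γ : Type*} [Group Γ] {𝒮 𝔉 : Type*} [CommRing 𝒮] [CommRing 𝔉]
  {act : Γ → 𝔉 →+* 𝔉} {fst : 𝒮 →+* 𝔉}
  {𝕂 𝕃 : Type*} [Field 𝕂] [Field 𝕃] [Algebra 𝕂 𝕃] {red : 𝒮 →+* 𝕃}

/-- **(C)** if `g • x₀ ~ x₀` then `g • z ~ z` for all `z`.
PROOF: `transferG` with `I = X'`, `α = a`, `ρ x z' := ∃ γ, γ • x₀ = x ∧ γ • z = z'` (invariant: multiply `γ` on the left),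
`i₀ = x₀`, `i₁ = g • x₀`, `ν := minpoly 𝕂 (red (a (g • z)))`.  The right side holds with `x = g • z`, `γ = g` (`minpoly.aeval`).
So there is `γ` with `γ • x₀ = x₀` and `aeval (red (a (γ • z))) ν = 0`; `ν` is irreducible and monic (`isIntegral_red`,
`minpoly.irreducible`, `minpoly.monic`), so `ν = minpoly 𝕂 (red (a (γ • z)))` (`minpoly.eq_of_irreducible_of_monic`), which is
`minpoly 𝕂 (red (a z))` by `hT`. -/
theorem minpoly_smul_of (hInv : Inv act fst red (algebraMap 𝕂 𝕃))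
    {X' : Type*} [Fintype X'] [DecidableEq X'] [MulAction Γ X']
    (a : X' → 𝒮) (ha : Eqv act fst a) (x₀ : X')
    (hs : ∀ x, x ≠ x₀ → red (a x) ≠ red (a x₀))
    (hT : ∀ h : Γ, h • x₀ = x₀ → ∀ z, minpoly 𝕂 (red (a (h • z))) = minpoly 𝕂 (red (a z)))
    (g : Γ) (hg : minpoly 𝕂 (red (a (g • x₀))) = minpoly 𝕂 (red (a x₀))) (z : X') :
    minpoly 𝕂 (red (a (g • z))) = minpoly 𝕂 (red (a z)) := by
  have hint : IsIntegral 𝕂 (red (a (g • z))) := isIntegral_red hInv a ha (g • z)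
  have key := transferG hInv a ha a ha
    (fun x z' => ∃ γ : Γ, γ • x₀ = x ∧ γ • z = z')
    (by
      intro γ' i x
      constructor
      · rintro ⟨γ, h1, h2⟩
        refine ⟨γ'⁻¹ * γ, ?_, ?_⟩
        · rw [mul_smul, h1, inv_smul_smul]
        · rw [mul_smul, h2, inv_smul_smul]
      · rintro ⟨γ, h1, h2⟩
        refine ⟨γ' * γ, ?_, ?_⟩
        · rw [mul_smul, h1]
        · rw [mul_smul, h2])
    x₀ (g • x₀) hg.symm hs (minpoly 𝕂 (red (a (g • z))))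
  obtain ⟨x, ⟨γ, hγ, rfl⟩, hx⟩ := key.2 ⟨g • z, ⟨g, rfl, rfl⟩, minpoly.aeval _ _⟩
  rw [minpoly.eq_of_irreducible_of_monic (minpoly.irreducible hint) hx (minpoly.monic hint)]
  exact hT γ hγ z

/-- **(I3)** every point of `P` has a point of `X'` above it which is conjugate to `x₀`.
PROOF: `transferG` with `I = P`, `ρ p x := π x = p` (invariant by `hπ` and `smul_left_cancel_iff`), `i₀ = π x₀`, `i₁ = p`,
`ν = minpoly 𝕂 (red (a x₀))`; left side: `x = x₀`; then `minpoly.eq_of_irreducible_of_monic`. -/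
theorem exists_conj_above (hInv : Inv act fst red (algebraMap 𝕂 𝕃))
    {X' P : Type*} [Fintype X'] [MulAction Γ X'] [Fintype P] [DecidableEq P] [MulAction Γ P]
    (a : X' → 𝒮) (ha : Eqv act fst a) (x₀ : X')
    (π : X' → P) (hπ : ∀ (γ : Γ) (x : X'), π (γ • x) = γ • π x)
    (α : P → 𝒮) (hα : Eqv act fst α)
    (hmin0 : ∀ p, minpoly 𝕂 (red (α p)) = minpoly 𝕂 (red (α (π x₀))))
    (hs0 : ∀ p, p ≠ π x₀ → red (α p) ≠ red (α (π x₀))) (p : P) :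
    ∃ x, π x = p ∧ minpoly 𝕂 (red (a x)) = minpoly 𝕂 (red (a x₀)) := by
  have hint : IsIntegral 𝕂 (red (a x₀)) := isIntegral_red hInv a ha x₀
  have key := transferG hInv α hα a ha (fun p x => π x = p)
    (by
      intro γ i x
      rw [hπ, smul_left_cancel_iff])
    (π x₀) p (hmin0 p).symm hs0 (minpoly 𝕂 (red (a x₀)))
  obtain ⟨x, hx, hx0⟩ := key.1 ⟨x₀, rfl, minpoly.aeval _ _⟩
  exact ⟨x, hx,
    (minpoly.eq_of_irreducible_of_monic (minpoly.irreducible hint) hx0 (minpoly.monic hint)).symm⟩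

/-- **The abstract theorem.**
PROOF: `D : Subgroup Γ` with carrier `{g | minpoly 𝕂 (red (a (g • x₀))) = minpoly 𝕂 (red (a x₀))}`:
`one_smul`; `mul_smul` + `minpoly_smul_of` for `g` at `z = g' • x₀`; inverse: `minpoly_smul_of` for `g` at `z = g⁻¹ • x₀` (`smul_inv_smul`).
Claim `∀ g u, u • x₀ = x₀ → g * u * g⁻¹ ∈ D`: `exists_conj_above` at `p = g • π x₀` gives `x = d • x₀` (`htrans`) with `d ∈ D`,
`d • π x₀ = g • π x₀`; `b := d⁻¹ * g` fixes `π x₀`, `b * u * b⁻¹` fixes `x₀` (`hnorm`), so it is in `D`, and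
`g * u * g⁻¹ = d * (b * u * b⁻¹) * d⁻¹ ∈ D`.  `hgen D` gives `D = ⊤`; conclude with `htrans`. -/
theorem minpoly_eq_of (hInv : Inv act fst red (algebraMap 𝕂 𝕃))
    {X' P : Type*} [Fintype X'] [DecidableEq X'] [MulAction Γ X'] [Fintype P] [DecidableEq P]
    [MulAction Γ P]
    (a : X' → 𝒮) (ha : Eqv act fst a) (x₀ : X') (htrans : ∀ x, ∃ g : Γ, g • x₀ = x)
    (hs : ∀ x, x ≠ x₀ → red (a x) ≠ red (a x₀))
    (hT : ∀ h : Γ, h • x₀ = x₀ → ∀ z, minpoly 𝕂 (red (a (h • z))) = minpoly 𝕂 (red (a z)))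
    (π : X' → P) (hπ : ∀ (γ : Γ) (x : X'), π (γ • x) = γ • π x)
    (α : P → 𝒮) (hα : Eqv act fst α)
    (hmin0 : ∀ p, minpoly 𝕂 (red (α p)) = minpoly 𝕂 (red (α (π x₀))))
    (hs0 : ∀ p, p ≠ π x₀ → red (α p) ≠ red (α (π x₀)))
    (hnorm : ∀ b u : Γ, b • π x₀ = π x₀ → u • x₀ = x₀ → (b * u * b⁻¹) • x₀ = x₀)
    (hgen : ∀ D : Subgroup Γ, (∀ g u : Γ, u • x₀ = x₀ → g * u * g⁻¹ ∈ D) → D = ⊤) (x : X') :
    minpoly 𝕂 (red (a x)) = minpoly 𝕂 (red (a x₀)) := by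
  have hC := fun (g : Γ) (hg : minpoly 𝕂 (red (a (g • x₀))) = minpoly 𝕂 (red (a x₀))) (z : X') =>
    minpoly_smul_of hInv a ha x₀ hs hT g hg z
  let D : Subgroup Γ :=
    { carrier := {g | minpoly 𝕂 (red (a (g • x₀))) = minpoly 𝕂 (red (a x₀))}
      one_mem' := by
        show minpoly 𝕂 (red (a ((1 : Γ) • x₀))) = minpoly 𝕂 (red (a x₀))
        rw [one_smul]
      mul_mem' := by
        intro g g' hg hg'
        show minpoly 𝕂 (red (a ((g * g') • x₀))) = minpoly 𝕂 (red (a x₀))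
        rw [mul_smul, hC g hg (g' • x₀)]
        exact hg'
      inv_mem' := by
        intro g hg
        show minpoly 𝕂 (red (a (g⁻¹ • x₀))) = minpoly 𝕂 (red (a x₀))
        rw [← hC g hg (g⁻¹ • x₀), smul_inv_smul] }
  have hD : ∀ g : Γ, g ∈ D ↔ minpoly 𝕂 (red (a (g • x₀))) = minpoly 𝕂 (red (a x₀)) :=
    fun _ => Iff.rfl
  have hfix : ∀ u : Γ, u • x₀ = x₀ → u ∈ D := by
    intro u hu
    rw [hD, hu]
  have hclaim : ∀ g u : Γ, u • x₀ = x₀ → g * u * g⁻¹ ∈ D := by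
    intro g u hu
    obtain ⟨x, hx, hxm⟩ := exists_conj_above hInv a ha x₀ π hπ α hα hmin0 hs0 (g • π x₀)
    obtain ⟨d, rfl⟩ := htrans x
    have hd : d ∈ D := (hD d).2 hxm
    rw [hπ] at hx
    have hb : (d⁻¹ * g) • π x₀ = π x₀ := by
      rw [mul_smul, ← hx, inv_smul_smul]
    have h1 : (d⁻¹ * g) * u * (d⁻¹ * g)⁻¹ ∈ D := hfix _ (hnorm _ u hb hu)
    have h2 : g * u * g⁻¹ = d * ((d⁻¹ * g) * u * (d⁻¹ * g)⁻¹) * d⁻¹ := by group
    rw [h2]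
    exact D.mul_mem (D.mul_mem hd h1) (D.inv_mem hd)
  have htop := hgen D hclaim
  obtain ⟨g, rfl⟩ := htrans x
  exact (hD g).1 (by rw [htop]; exact Subgroup.mem_top g)

end Field

end Fermat.Agent.G1.IG3
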