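import Mathlib

/-!
# G1-IG3: the abstract irreducibility theorem

`Γ` a group, `𝒮` a ring of "functions with expansions", `fst : 𝒮 → 𝔉` the function, `act γ` the action of
`Γ` on functions, `red : 𝒮 → 𝔏` (the reduced expansion), `e : 𝔸 → 𝔏` the base ring.
`Inv`: an element whose function is `Γ`-invariant has its expansion in the base ring.
-/

set_option autoImplicit false

namespace Fermat.Agent.G1.IG3

open Polynomial

section General

variable {Γ : Type*} [Group Γ] {𝒮 𝔉 𝔸 𝔏 : Type*} [CommRing 𝒮] [CommRing 𝔉] [CommRing 𝔸] [CommRing 𝔏]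
  (act : Γ → 𝔉 →+* 𝔉) (fst : 𝒮 →+* 𝔉) (red : 𝒮 →+* 𝔏) (e : 𝔸 →+* 𝔏)

/-- the invariance principle. -/
def Inv : Prop := ∀ s : 𝒮, (∀ γ, act γ (fst s) = fst s) → red s ∈ e.range

/-- equivariant families. -/
def Eqv {I : Type*} [MulAction Γ I] (α : I → 𝒮) : Prop :=
  ∀ (γ : Γ) (i : I), act γ (fst (α i)) = fst (α (γ • i))

end General

end Fermat.Agent.G1.IG3
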