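import Fermat.Agent.G1.IG3.FamA
import Fermat.Agent.G1.AN.Main

/-!
# G1-IG3: the concrete functions: `vF M` (unit of `X₀(M)`, S28) and `V1F M = vF M ^ 2 + genF M 1 1`
-/

set_option autoImplicit false

namespace Fermat.Agent.G1.IG3

open ModularCurve Polynomial UpperHalfPlane CongruenceSubgroup Fermat.Agent.S28 Fermat.Agent.G1.A
open scoped MatrixGroups Manifold

noncomputable section

/-- `O` contains `1/M` and the `M`-th roots of unity. -/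
structure Good (M : ℕ) (O : Subring ℂ) : Prop where
  inv : ((M : ℂ))⁻¹ ∈ O
  root : ∀ ζ : ℂ, ζ ^ M = 1 → ζ ∈ O

variable {M : ℕ} [NeZero M] {O : Subring ℂ}

/-- PROOF: `mdiff_vF M`; for `γ ∈ Γ₀(M)`: `vF_smul_of_mem_Gamma0`, `isExp_vF M`, `F := iotaN O M (VZ M)` (`coeffMap_iotaN O.subtype M (VZ M)`, and
`iotaN ℂ M = iotaC M` by `rfl`); for `γ ∉ Γ₀(M)`: `exists_isExp_vF_smul M γ` and `exists_coeffMap_subtype_eq O f (…)`
(`S28/DescBasic.lean`). -/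
theorem hasExpO_vF (hO : Good M O) : HasExpO M O (vF M) := by
  refine ⟨mdiff_vF M, fun γ => ?_⟩
  by_cases hγ : γ ∈ Gamma0 M
  · refine ⟨iotaN O M (VZ M), ?_⟩
    rw [coeffMap_iotaN O.subtype M (VZ M)]
    have h1 : (fun τ => vF M (γ • τ)) = vF M := by
      funext τ
      exact vF_smul_of_mem_Gamma0 M γ hγ τ
    rw [h1]
    exact isExp_vF M
  · obtain ⟨f, hf, h2⟩ := exists_isExp_vF_smul M γ
    obtain ⟨F, hF⟩ := exists_coeffMap_subtype_eq O f (((h2 hγ).2 O hO.inv hO.root).1)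
    exact ⟨F, by rw [hF]; exact hf⟩

/-- PROOF: `mdiff_genF`, `G1.AN.exists_isExp_genF_smul_int`, `exists_coeffMap_subtype_eq`. -/
theorem hasExpO_genF (hO : Good M O) (b : ℤ) (hb : ¬ (M : ℤ) ∣ b) (d : ℕ) [NeZero d] (hd : d ∣ M) :
    HasExpO M O (genF M b d) := by
  refine ⟨mdiff_genF M b d, fun γ => ?_⟩
  obtain ⟨f, hf, h2⟩ := G1.AN.exists_isExp_genF_smul_int M b hb d hd γ
  obtain ⟨F, hF⟩ := exists_coeffMap_subtype_eq O f (h2 O hO.inv hO.root)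
  exact ⟨F, by rw [hF]; exact hf⟩

theorem not_dvd_one (hM : 1 < M) : ¬ (M : ℤ) ∣ 1 := by
  intro h
  have := Int.le_of_dvd one_pos h
  omega

/-- the primitive element, as a function. -/
def V1F (M : ℕ) (τ : ℍ) : ℂ := vF M τ ^ 2 + genF M 1 1 τ

theorem hasExpO_V1F (hO : Good M O) (hM : 1 < M) : HasExpO M O (V1F M) :=
  ((hasExpO_vF hO).pow 2).add (hasExpO_genF hO 1 (not_dvd_one hM) 1 (one_dvd M))

/-- the primitive element, as a formal series. -/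
def VZ1 (M : ℕ) : LaurentSeries ℤ := VZ M ^ 2 + uB ℤ M 1 1

instance : Fintype (Cosets1 M) := Fintype.ofFinite _

instance : Finite (SL(2, ℤ) ⧸ Gamma0 M) := Subgroup.finite_quotient_of_finiteIndex

instance : Fintype (SL(2, ℤ) ⧸ Gamma0 M) := Fintype.ofFinite _

/-- the conjugates of `V1F M`. -/
def aX (hO : Good M O) (hM : 1 < M) : Cosets1 M → symO M O := fam (Gpm M) (V1F M) (hasExpO_V1F hO hM)

/-- the conjugates of `vF M`. -/
def aP (hO : Good M O) : SL(2, ℤ) ⧸ Gamma0 M → symO M O := fam (Gamma0 M) (vF M) (hasExpO_vF hO)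

/-- the base points. -/
def x0 (M : ℕ) : Cosets1 M := ((1 : SL(2, ℤ)) : Cosets1 M)

/-- the projection `X₁ → X₀`. -/
def piX (M : ℕ) : Cosets1 M → SL(2, ℤ) ⧸ Gamma0 M := Subgroup.quotientMapOfLE (Gpm_le_Gamma0 M)

/-- `vF_smul_of_mem_Gamma0` (with `Gpm_le_Gamma0`), `genF_smul_of_mem_Gpm`. -/
theorem V1F_smul_of_mem_Gpm (γ : SL(2, ℤ)) (hγ : γ ∈ Gpm M) (τ : ℍ) : V1F M (γ • τ) = V1F M τ := by
  unfold V1F
  rw [vF_smul_of_mem_Gamma0 M γ (Gpm_le_Gamma0 M hγ) τ,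
    genF_smul_of_mem_Gpm M 1 1 (one_dvd M) γ hγ τ]

theorem eqv_aX (hO : Good M O) (hM : 1 < M) : Eqv actO fstO (aX hO hM) :=
  eqv_fam _ V1F_smul_of_mem_Gpm

theorem eqv_aP (hO : Good M O) : Eqv actO fstO (aP hO) :=
  eqv_fam _ (vF_smul_of_mem_Gamma0 M)

theorem aX_mk (hO : Good M O) (hM : 1 < M) (g : SL(2, ℤ)) :
    aX hO hM (g : Cosets1 M) =
      conj (vF M) (hasExpO_vF hO) g⁻¹ ^ 2 +
        conj (genF M 1 1) (hasExpO_genF hO 1 (not_dvd_one hM) 1 (one_dvd M)) g⁻¹ := by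
  have h := fam_mk (H := Gpm M) (hasExpO_V1F hO hM) V1F_smul_of_mem_Gpm g
  rw [aX, h]
  have h2 := conj_add ((hasExpO_vF hO).pow 2) (hasExpO_genF hO 1 (not_dvd_one hM) 1 (one_dvd M)) g⁻¹
  rw [conj_pow] at h2
  exact h2

theorem aP_mk (hO : Good M O) (g : SL(2, ℤ)) :
    aP hO (g : SL(2, ℤ) ⧸ Gamma0 M) = conj (vF M) (hasExpO_vF hO) g⁻¹ :=
  fam_mk _ (vF_smul_of_mem_Gamma0 M) g

end

end Fermat.Agent.G1.IG3
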