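import Fermat.Agent.G1.A.Base

/-!
# G1-IG3: group theory of `±Γ₁(M) ≤ Γ₀(M) ≤ SL₂(ℤ)`
-/

set_option autoImplicit false

namespace Fermat.Agent.G1.IG3

open CongruenceSubgroup Fermat.Agent.G1.A
open scoped MatrixGroups

/-- `QuotientGroup.eq`, `MulAction.Quotient.smul_mk`. -/
theorem smul_x0_iff (M : ℕ) (h : SL(2, ℤ)) :
    h • ((1 : SL(2, ℤ)) : Cosets1 M) = ((1 : SL(2, ℤ)) : Cosets1 M) ↔ h ∈ Gpm M := by
  rw [MulAction.Quotient.smul_mk, QuotientGroup.eq, smul_eq_mul, mul_one, mul_one, inv_mem_iff]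

theorem smul_p0_iff (M : ℕ) (h : SL(2, ℤ)) :
    h • ((1 : SL(2, ℤ)) : SL(2, ℤ) ⧸ Gamma0 M) = ((1 : SL(2, ℤ)) : SL(2, ℤ) ⧸ Gamma0 M) ↔
      h ∈ Gamma0 M := by
  rw [MulAction.Quotient.smul_mk, QuotientGroup.eq, smul_eq_mul, mul_one, mul_one, inv_mem_iff]

theorem T_mem_Gpm (M : ℕ) : ModularGroup.T ∈ Gpm M := by
  refine Or.inl ?_
  rw [Gamma1_mem]
  simp [ModularGroup.T]

theorem Group_det_cast (M : ℕ) (b : SL(2, ℤ)) :
    ((b 0 0 : ℤ) : ZMod M) * ((b 1 1 : ℤ) : ZMod M) - ((b 0 1 : ℤ) : ZMod M) * ((b 1 0 : ℤ) : ZMod M)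
      = 1 := by
  have h := b.det_coe
  rw [Matrix.det_fin_two] at h
  have h2 := congrArg (fun x : ℤ => (x : ZMod M)) h
  simpa using h2

theorem Group_conj_mem_Gamma1 (M : ℕ) (b u : SL(2, ℤ)) (hb : b ∈ Gamma0 M) (hu : u ∈ Gamma1 M) :
    b * u * b⁻¹ ∈ Gamma1 M := by
  rw [Gamma0_mem] at hb
  rw [Gamma1_mem] at hu ⊢
  obtain ⟨h1, h2, h3⟩ := hu
  have hd := Group_det_cast M b
  rw [hb, mul_zero, sub_zero] at hd
  simp only [Matrix.SpecialLinearGroup.coe_mul, Matrix.SpecialLinearGroup.coe_inv,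
    Matrix.adjugate_fin_two, Matrix.mul_apply, Fin.sum_univ_two,
    Matrix.of_apply, Matrix.cons_val_zero, Matrix.cons_val_one,
    Matrix.cons_val', Matrix.cons_val_fin_one]
  push_cast
  rw [h1, h2, h3, hb]
  refine ⟨?_, ?_, ?_⟩
  · linear_combination hd
  · linear_combination hd
  · ring

/-- `±Γ₁(M)` is normalised by `Γ₀(M)`.
PROOF: reduce to `u ∈ Γ₁(M)` (`-(b u b⁻¹) = b (-u) b⁻¹`).  `Gamma1_mem`: entries mod `M`; with `b = (a β; c d)`, `c ≡ 0`, `a d ≡ 1`, `u ≡ (1 *; 0 1)`: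
compute the entries of `b * u * b⁻¹` (`Matrix.SpecialLinearGroup.coe_mul`, `SL2_inv_expl`, `Matrix.mul_apply`, `Fin.sum_univ_two`) in `ZMod M`. -/
theorem conj_mem_Gpm (M : ℕ) (b u : SL(2, ℤ)) (hb : b ∈ Gamma0 M) (hu : u ∈ Gpm M) :
    b * u * b⁻¹ ∈ Gpm M := by
  rcases hu with hu | hu
  · exact Or.inl (Group_conj_mem_Gamma1 M b u hb hu)
  · refine Or.inr ?_
    have h : -(b * u * b⁻¹) = b * (-u) * b⁻¹ := by
      rw [mul_neg, neg_mul]
    rw [h]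
    exact Group_conj_mem_Gamma1 M b (-u) hb hu

/-- a subgroup containing all conjugates of `T` is everything.
PROOF: `T ∈ D` (`g = 1`), `S * T * S⁻¹ ∈ D`, `S⁻¹ = T * (S * T * S⁻¹) * T` (check by `ext`/`decide`-style matrix computation: `S T S⁻¹ = (1 0; -1 1)`), so `S ∈ D`;
`Matrix.SpecialLinearGroup.SL2Z_generators : Subgroup.closure {S, T} = ⊤`. -/
theorem eq_top_of_conj_T (D : Subgroup SL(2, ℤ))
    (h : ∀ g : SL(2, ℤ), g * ModularGroup.T * g⁻¹ ∈ D) : D = ⊤ := by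
  have hT : ModularGroup.T ∈ D := by
    have := h 1
    simpa using this
  have hS1 : ModularGroup.S * ModularGroup.T * ModularGroup.S⁻¹ ∈ D := h _
  have hS2 : ModularGroup.S⁻¹
      = ModularGroup.T * (ModularGroup.S * ModularGroup.T * ModularGroup.S⁻¹) * ModularGroup.T := by
    decide
  have hS : ModularGroup.S ∈ D := by
    rw [← inv_mem_iff, hS2]
    exact mul_mem (mul_mem hT hS1) hT
  rw [eq_top_iff, ← SpecialLinearGroup.SL2Z_generators, Subgroup.closure_le]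
  rintro x (rfl | rfl)
  · exact hS
  · exact hT

theorem Group_Gamma_le_Gpm (M : ℕ) : Gamma M ≤ Gpm M := fun γ hγ => by
  refine Gamma1_le_Gpm M ?_
  rw [Gamma_mem] at hγ
  rw [Gamma1_mem]
  exact ⟨hγ.1, hγ.2.2.2, hγ.2.2.1⟩

theorem Group_neg_smul (M : ℕ) (h : SL(2, ℤ)) (z : Cosets1 M) : (-h) • z = h • z := by
  induction z using QuotientGroup.induction_on with
  | H g =>
    rw [MulAction.Quotient.smul_mk, MulAction.Quotient.smul_mk, QuotientGroup.eq, smul_eq_mul,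
      smul_eq_mul]
    have e : (-h * g)⁻¹ * (h * g) = -1 := by
      rw [inv_mul_eq_iff_eq_mul, mul_neg, mul_one, neg_mul, neg_neg]
    rw [e]
    exact neg_one_mem_Gpm M

theorem Group_exists_zpow_T_smul (M : ℕ) (h : SL(2, ℤ)) (hh : h ∈ Gamma1 M) :
    ∃ k : ℤ, ∀ z : Cosets1 M, h • z = (ModularGroup.T ^ k) • z := by
  refine ⟨h 0 1, fun z => ?_⟩
  have hn : (ModularGroup.T ^ (h 0 1))⁻¹ * h ∈ Gamma M := by
    rw [Gamma1_mem] at hh
    obtain ⟨h1, h2, h3⟩ := hh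
    rw [← zpow_neg, Gamma_mem]
    simp only [Matrix.SpecialLinearGroup.coe_mul, ModularGroup.coe_T_zpow, Matrix.mul_apply,
      Fin.sum_univ_two, Matrix.of_apply, Matrix.cons_val_zero, Matrix.cons_val_one,
      Matrix.cons_val', Matrix.cons_val_fin_one]
    push_cast
    rw [h1, h2, h3]
    refine ⟨by ring, by ring, by ring, by ring⟩
  induction z using QuotientGroup.induction_on with
  | H g =>
    rw [MulAction.Quotient.smul_mk, MulAction.Quotient.smul_mk, eq_comm, QuotientGroup.eq,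
      smul_eq_mul, smul_eq_mul]
    have e : (ModularGroup.T ^ (h 0 1) * g)⁻¹ * (h * g)
        = g⁻¹ * ((ModularGroup.T ^ (h 0 1))⁻¹ * h) * g := by
      group
    rw [e]
    exact Group_Gamma_le_Gpm M ((Gamma_normal M).conj_mem' _ hn g)

/-- `Γ(M)` and `-1` act trivially on `SL₂(ℤ)/±Γ₁(M)`, and `±Γ₁(M) = ±⟨T⟩ Γ(M)`.
PROOF: `h ∈ Gpm M`; replacing `h` by `-h` (which acts in the same way: `(-h) * g = g * (g⁻¹ * (-1) * g) * …`; simpler: `(-h) • mk g = mk (-(h * g))` and `mk (-x) = mk x` because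
`x⁻¹ * (-x) = -1 ∈ Gpm M`) we may assume `h ∈ Γ₁(M)`.  `k := h 0 1`; `n := T^(-k) * h ∈ Γ(M)` (`Gamma_mem`, `ModularGroup.coe_T_zpow`).  For `z = mk g`: `h • mk g = mk (T^k * n * g)` and
`(T^k * g)⁻¹ * (T^k * n * g) = g⁻¹ * n * g ∈ Γ(M) ≤ Γ₁(M) ≤ Gpm M` (`CongruenceSubgroup.Gamma_normal`, `Subgroup.Normal.conj_mem'`; `Gamma_le_Gamma1`/`Gamma1_mem`). -/
theorem exists_zpow_T_smul (M : ℕ) (h : SL(2, ℤ)) (hh : h ∈ Gpm M) :
    ∃ k : ℤ, ∀ z : Cosets1 M, h • z = (ModularGroup.T ^ k) • z := by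
  rcases hh with hh | hh
  · exact Group_exists_zpow_T_smul M h hh
  · obtain ⟨k, hk⟩ := Group_exists_zpow_T_smul M (-h) hh
    refine ⟨k, fun z => ?_⟩
    rw [← hk z, Group_neg_smul]

/-- for `γ ∈ Γ₀(M) \ ±Γ₁(M)` the upper left entry is not `±1` mod `M` (`Gamma1_mem`, `Gamma0_mem`, `det = 1`: `a d ≡ 1`, so `a ≡ 1 → d ≡ 1`). -/
theorem entry_ne_of_not_mem_Gpm (M : ℕ) (γ : SL(2, ℤ)) (hγ : γ ∈ Gamma0 M) (hγ' : γ ∉ Gpm M) :
    ((γ 0 0 : ℤ) : ZMod M) ≠ 1 ∧ ((γ 0 0 : ℤ) : ZMod M) ≠ -1 := by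
  rw [Gamma0_mem] at hγ
  have hd := Group_det_cast M γ
  rw [hγ, mul_zero, sub_zero] at hd
  constructor
  · intro h
    apply hγ'
    refine Or.inl ?_
    rw [Gamma1_mem]
    refine ⟨h, ?_, hγ⟩
    rw [h, one_mul] at hd
    exact hd
  · intro h
    apply hγ'
    refine Or.inr ?_
    rw [Gamma1_mem]
    rw [h] at hd
    simp only [Matrix.SpecialLinearGroup.coe_neg, Matrix.neg_apply]
    push_cast
    refine ⟨by rw [h, neg_neg], by linear_combination hd, by rw [hγ, neg_zero]⟩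

/-- `S ∉ Γ₀(M)` for `M > 1`. -/
theorem S_not_mem_Gamma0 (M : ℕ) (hM : 1 < M) : ModularGroup.S ∉ Gamma0 M := by
  rw [Gamma0_mem]
  have h1 : (ModularGroup.S 1 0 : ℤ) = 1 := rfl
  rw [h1, ZMod.intCast_zmod_eq_zero_iff_dvd]
  intro h
  have h2 := Int.le_of_dvd one_pos h
  omega

end Fermat.Agent.G1.IG3
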