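import Fermat.Agent.G1.IG3.X0a
import Fermat.Agent.G1.IG3.Group

/-!
# G1-IG3: formal consequences of the factorisation `W = ∏ (X - y_x)`: monic, degree, root, derivative, Lagrange
-/

set_option autoImplicit false

namespace Fermat.Agent.G1.IG3

open ModularCurve Polynomial UpperHalfPlane CongruenceSubgroup Fermat.Agent.S28 Fermat.Agent.G1.A
open scoped MatrixGroups Manifold

noncomputable section

variable {M : ℕ} [NeZero M] {O : Subring ℂ}

/-- PROOF: `coeffMap O.subtype (evP O (JN O M) p) = evP ℂ (JN ℂ M) (p.map O.subtype)` (`map_evP O.subtype (coeffMap O.subtype) (coeffMap_algebraMap' _ _ fun _ => rfl)`, `coeffMap_JN`), `evP_JN_injective ℂ M`,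
`Polynomial.map_injective _ Subtype.val_injective`. -/
theorem evP_O_injective : Function.Injective (evP O (JN O M)) := by
  intro p q hpq
  have h := congrArg (coeffMap O.subtype) hpq
  rw [map_evP O.subtype (coeffMap O.subtype) (coeffMap_algebraMap' _ _ fun _ => rfl),
    map_evP O.subtype (coeffMap O.subtype) (coeffMap_algebraMap' _ _ fun _ => rfl),
    coeffMap_JN] at h
  exact Polynomial.map_injective _ Subtype.val_injective (evP_JN_injective ℂ M h)

section Formal

variable {A L I : Type*} [CommRing A] [CommRing L] [IsDomain L] [Fintype I] [DecidableEq I]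
  (e : A →+* L) (he : Function.Injective e) (y : I → L) (W : A[X])
  (hW : W.map e = ∏ i, (X - C (y i)))

include he hW in
/-- `Polynomial.monic_of_injective`, `monic_prod_of_monic`, `monic_X_sub_C`. -/
theorem monic_of_fac : W.Monic := by
  refine Polynomial.monic_of_injective he ?_
  rw [hW]
  exact monic_prod_of_monic _ _ fun i _ => monic_X_sub_C (y i)

include he hW in
/-- `natDegree_map_eq_of_injective`, `natDegree_prod_of_monic`, `natDegree_X_sub_C`, `Finset.card_univ`. -/
theorem natDegree_of_fac : W.natDegree = Fintype.card I := by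
  rw [← natDegree_map_eq_of_injective he, hW,
    natDegree_prod_of_monic _ _ fun i _ => monic_X_sub_C (y i)]
  simp

include hW in
/-- `eval₂_eq_eval_map`, `eval_prod`, `Finset.prod_eq_zero`. -/
theorem root_of_fac (i : I) : W.eval₂ e (y i) = 0 := by
  rw [eval₂_eq_eval_map, hW, eval_prod]
  exact Finset.prod_eq_zero (Finset.mem_univ i) (by simp)

include hW in
/-- `eval₂_eq_eval_map`, `derivative_map`, `Finset.mul_prod_erase`, `derivative_mul` (see `GR.D.Vert.derivative_eval_of_fac`) or `Polynomial.derivative_prod` + `Finset.sum_eq_single i`. -/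
theorem derivative_of_fac (i : I) :
    (derivative W).eval₂ e (y i) = ∏ k ∈ Finset.univ.erase i, (y i - y k) := by
  rw [eval₂_eq_eval_map, ← derivative_map, hW, ← Finset.mul_prod_erase _ _ (Finset.mem_univ i),
    derivative_mul, eval_add, eval_mul, eval_mul]
  simp [eval_prod]

/-- evaluation of the Lagrange numerator (`eval_finset_sum`, `Finset.sum_eq_single i`, the other terms contain the factor `y i - y i`). -/
theorem eval_lagrange (c : I → L) (i : I) :
    (∑ i', C (c i') * ∏ k ∈ Finset.univ.erase i', (X - C (y k))).eval (y i) =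
      c i * ∏ k ∈ Finset.univ.erase i, (y i - y k) := by
  rw [eval_finsetSum, Finset.sum_eq_single i]
  · simp [eval_prod]
  · intro j _ hj
    rw [eval_mul, eval_prod]
    rw [Finset.prod_eq_zero (Finset.mem_erase.2 ⟨Ne.symm hj, Finset.mem_univ i⟩) (by simp),
      mul_zero]
  · intro h
    exact absurd (Finset.mem_univ i) h

end Formal

/-- `Subgroup.index_eq_card`, `Nat.card_eq_fintype_card`. -/
theorem card_cosets1 : Fintype.card (Cosets1 M) = (Gpm M).index := by
  rw [Subgroup.index_eq_card, Nat.card_eq_fintype_card]

end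

end Fermat.Agent.G1.IG3
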