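import Fermat.Agent.G1.IG3.Conc
import Fermat.Agent.G1.IG3.Group

/-!
# G1-IG3: the generators of `FF1` as functions with `O`-integral expansions
-/

set_option autoImplicit false

namespace Fermat.Agent.G1.IG3

open ModularCurve Polynomial UpperHalfPlane CongruenceSubgroup Fermat.Agent.S28 Fermat.Agent.G1.A
open scoped MatrixGroups Manifold

noncomputable section

variable {M : ℕ} [NeZero M] {O : Subring ℂ}

/-- the generators of `FF1`, as integral series. -/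
def genSet (M : ℕ) : Set (LaurentSeries ℤ) :=
  {s | (∃ (d : ℕ) (_ : NeZero d), d ∣ M ∧ s = qExpand ℤ d (jqModC ℤ)) ∨
    (∃ (d : ℕ) (_ : NeZero d) (b : ZMod M), d ∣ M ∧ b ≠ 0 ∧ s = uB ℤ M d b)}

theorem CoreB_coeff_jqModC_mem (O : Subring ℂ) (k : ℤ) : (jqModC ℂ).coeff k ∈ O := by
  rw [← S28.coeffMap_jqModC (Int.castRingHom ℂ), coeffMap_coeff]
  exact intCast_mem O _

theorem CoreB_isExp_level (N : ℕ) [NeZero N] {f : ℍ → ℂ} {F : LaurentSeries ℂ} (hf : IsExp 1 f F) :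
    IsExp N f (qExpand ℂ N F) := by
  have h := hf.comp_affH (N := N) (a := 1) (δ := 1) (m := N) 0
    (Nat.pos_of_ne_zero (NeZero.ne N)) one_pos one_pos (by ring)
  rw [sym_rootU_zero_one, substL_one] at h
  simpa [sym_affH_one] using h

/-- `j(dτ)`: integrality of the expansions of all conjugates.
PROOF: as `S28.exists_isExp_jdF_smul` (file `S28/An/Unit.lean`): `exists_affH_smul γ d`, `gcd_facts`, `isExp_jF.comp_affH b hN hg0 hδ0 hm` gives the expansion `substL (rootU b δ) m (jqModC ℂ)` with `δ ∣ M`; its coefficients are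
(power of the root of unity `rootU b δ`) * (integer) (`substL_coeff_mul`, `substL_coeff_of_not_dvd`; `jqModC ℂ = coeffMap (Int.castRingHom ℂ) (jqModC ℤ)` by `coeffMap_jqModC`), hence in `O` (`hO.root`; for negative powers the inverse is again a root of unity);
compare `coeff_substL_mem` in `S28/An/GoodDelta.lean`, and helper55's K10 (`wip_helper56/G1/IG/V1_K10.lean.txt`, `exists_fn_jdF`) which proves the same fact.  `exists_coeffMap_subtype_eq`. -/
theorem hasExpO_jdF (hO : Good M O) (d : ℕ) [NeZero d] (hd : d ∣ M) : HasExpO M O (jdF d) := by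
  refine ⟨mdiff_jdF d, fun γ => ?_⟩
  have hN : 0 < M := Nat.pos_of_ne_zero (NeZero.ne M)
  have hd' : d ∈ M.divisors := Nat.mem_divisors.mpr ⟨hd, NeZero.ne M⟩
  obtain ⟨b, hb⟩ := exists_affH_smul γ d (Nat.pos_of_mem_divisors hd')
  obtain ⟨hg0, hδ0, hδN, hm0, hm, -⟩ := gcd_facts hN hd' (γ 1 0)
  haveI : NeZero (Int.gcd d (γ 1 0) * (M / (d / Int.gcd d (γ 1 0)))) := ⟨hm0⟩
  have h1 := (isExp_jF.comp_affH b hN hg0 hδ0 hm).congr fun τ => ((hb τ).2).symm
  obtain ⟨F, hF⟩ := exists_coeffMap_subtype_eq O _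
    (coeff_substL_mem O b hδ0 hδN hO.root (Int.gcd d (γ 1 0) * (M / (d / Int.gcd d (γ 1 0))))
      (CoreB_coeff_jqModC_mem O))
  exact ⟨F, by rw [hF]; exact h1⟩

/-- `sndO_conj_eq`, `one_smul`, `isExp_jdF M d hd`, `coeffMap_qExpand`, `coeffMap_jqModC`. -/
theorem sndO_conj_jdF_one (hO : Good M O) (d : ℕ) [NeZero d] (hd : d ∣ M) :
    sndO (conj (jdF d) (hasExpO_jdF hO d hd) 1) = iotaN O M (qExpand ℤ d (jqModC ℤ)) := by
  apply sndO_conj_eq
  rw [coeffMap_iotaN]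
  have h2 : iotaN ℂ M (qExpand ℤ d (jqModC ℤ)) = qExpand ℂ M (qExpand ℂ d (jqModC ℂ)) := by
    show qExpand ℂ M (coeffMap (Int.castRingHom ℂ) (qExpand ℤ d (jqModC ℤ))) = _
    rw [coeffMap_qExpand, S28.coeffMap_jqModC]
  rw [h2]
  exact (isExp_jdF M d hd).congr fun τ => by rw [one_smul]

/-- `sndO_conj_eq`, `one_smul`, `isExp_genF M b hb d : IsExp 1 (genF M b d) (uB ℂ M d b)`, raise the level from `1` to `M` as in `S28.isExp_jF_level` (helper76's `K9_isExp_level` in `wip_helper76/G1/IG/V1_K9.lean.txt` is this lemma), `coeffMap_uB`. -/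
theorem sndO_conj_genF_one (hO : Good M O) (b : ℤ) (hb : ¬ (M : ℤ) ∣ b) (d : ℕ) [NeZero d]
    (hd : d ∣ M) :
    sndO (conj (genF M b d) (hasExpO_genF hO b hb d hd) 1) = iotaN O M (uB ℤ M d (b : ZMod M)) := by
  apply sndO_conj_eq
  rw [coeffMap_iotaN]
  have h1 := CoreB_isExp_level M (isExp_genF M b hb d)
  have h2 : iotaN ℂ M (uB ℤ M d (b : ZMod M)) = qExpand ℂ M (uB ℂ M d (b : ZMod M)) := by
    show qExpand ℂ M (coeffMap (Int.castRingHom ℂ) (uB ℤ M d (b : ZMod M))) = _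
    rw [coeffMap_uB]
  rw [h2]
  exact h1.congr fun τ => by rw [one_smul]

/-- every generator is the expansion at `∞` of a `±Γ₁(M)`-invariant function with `O`-integral expansions.
PROOF: first case: `jdF d`, `jdF_smul_of_mem_Gamma0` + `Gpm_le_Gamma0`.  Second case: `b = ((ZMod.val b : ℤ) : ZMod M)` (`ZMod.natCast_zmod_val`), `¬ M ∣ val b` since `b ≠ 0` (`ZMod.intCast_zmod_eq_zero_iff_dvd`);
`genF_smul_of_mem_Gpm`. -/
theorem exists_fun_of_mem_genSet (hO : Good M O) (s : LaurentSeries ℤ) (hs : s ∈ genSet M) :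
    ∃ (φ : ℍ → ℂ) (hφ : HasExpO M O φ), (∀ h ∈ Gpm M, ∀ τ, φ (h • τ) = φ τ) ∧
      sndO (conj φ hφ 1) = iotaN O M s := by
  rcases hs with ⟨d, hd0, hd, rfl⟩ | ⟨d, hd0, b, hd, hb, rfl⟩
  · exact ⟨jdF d, hasExpO_jdF hO d hd,
      fun h hh τ => jdF_smul_of_mem_Gamma0 M d hd h (Gpm_le_Gamma0 M hh) τ,
      sndO_conj_jdF_one hO d hd⟩
  · have hb1 : (((ZMod.val b : ℕ) : ℤ) : ZMod M) = b := by
      rw [Int.cast_natCast, ZMod.natCast_zmod_val]
    have hb2 : ¬ (M : ℤ) ∣ ((ZMod.val b : ℕ) : ℤ) := by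
      intro h
      apply hb
      rw [← hb1]
      exact (ZMod.intCast_zmod_eq_zero_iff_dvd _ M).mpr h
    refine ⟨genF M ((ZMod.val b : ℕ) : ℤ) d, hasExpO_genF hO _ hb2 d hd,
      fun h hh τ => genF_smul_of_mem_Gpm M _ d hd h hh τ, ?_⟩
    rw [sndO_conj_genF_one hO _ hb2 d hd, hb1]

end

end Fermat.Agent.G1.IG3
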