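import Fermat.Agent.G1.IG3.Main
import Fermat.Agent.G1.IG3.CoreA
import Fermat.Agent.G1.IG3.CoreB
import Fermat.Agent.G1.IG.Model

/-!
# G1-IG3: the export: `IG.CoreSpec` for `VZ1 M = VZ M ^ 2 + uB ℤ M 1 1`
-/

set_option autoImplicit false

namespace Fermat.Agent.G1.IG3

open ModularCurve Polynomial UpperHalfPlane CongruenceSubgroup Fermat.Agent.S28 Fermat.Agent.G1.A
open scoped MatrixGroups Manifold

noncomputable section

variable {M : ℕ} [NeZero M] {O : Subring ℂ}

theorem coreSpec (hO : Good M O) (hM : 1 < M) {κ : Type*} [Field κ] (res : O →+* κ) :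
    IG.CoreSpec M (Gpm M).index (VZ1 M) (genSet M) O res := by
  classical
  obtain ⟨W, hW, hWr⟩ := exists_prod_red res (aX hO hM) (eqv_aX hO hM)
  have hy0 : sndO (aX hO hM (x0 M)) = iotaN O M (VZ1 M) := sndO_aX_x0 hO hM
  have hθ0 : redO res (aX hO hM (x0 M)) = iotaN κ M (VZ1 M) := redO_aX_x0 hO hM res
  have hWm : W.Monic := monic_of_fac _ evP_O_injective _ W hW
  have hWn : W.natDegree = (Gpm M).index := by
    rw [natDegree_of_fac _ evP_O_injective _ W hW, card_cosets1]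
  set w : κ[X][X] := W.map (Polynomial.mapRingHom res) with hw
  have hwm : w.Monic := hWm.map _
  refine ⟨W, hWm, hWn, ?_, ?_, ?_, ?_⟩
  · rw [← hy0]
    exact root_of_fac _ _ W hW (x0 M)
  · intro u hu
    refine eq_zero_of_sum_mul_pow_eq_zero (evP κ (JN κ M)) (evP_JN_injective κ M) w hwm
      (irreducible_Wbar hO hM res w hWr) (iotaN κ M (VZ1 M)) ?_ _ ?_ u hu
    · rw [← hθ0]
      exact root_of_fac _ _ w hWr (x0 M)
    · rw [hw, hWm.natDegree_map, hWn]
  · rw [← Polynomial.derivative_map, ← hθ0, derivative_of_fac _ _ w hWr (x0 M)]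
    refine Finset.prod_ne_zero_iff.mpr fun k hk => sub_ne_zero.mpr ?_
    exact (hs_aX hO hM res k (Finset.ne_of_mem_erase hk)).symm
  · intro s hs
    obtain ⟨φ, hφ, hinv, hφ1⟩ := exists_fun_of_mem_genSet hO s hs
    obtain ⟨G, hG⟩ := exists_lagrange inv_sndO (aX hO hM) (fam (Gpm M) φ hφ) (eqv_aX hO hM)
      (eqv_fam hφ hinv)
    refine ⟨G, ?_⟩
    have h1 : fam (Gpm M) φ hφ (x0 M) = conj φ hφ 1 := by
      have := fam_mk (H := Gpm M) hφ hinv 1
      rwa [inv_one] at this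
    rw [← hy0, eval₂_eq_eval_map, hG,
      eval_lagrange (fun x => sndO (aX hO hM x)) (fun x => sndO (fam (Gpm M) φ hφ x)) (x0 M),
      derivative_of_fac _ _ W hW (x0 M), h1, hφ1]

end

end Fermat.Agent.G1.IG3
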