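import Fermat.Agent.G1.IG3.Conc

/-!
# G1-IG3: explicit information on the expansions of the conjugates of `vF M` and `genF M 1 1`
-/

set_option autoImplicit false

namespace Fermat.Agent.G1.IG3

open ModularCurve Polynomial UpperHalfPlane CongruenceSubgroup Fermat.Agent.S28 Fermat.Agent.G1.A
open scoped MatrixGroups Manifold

noncomputable section

variable {M : ℕ} [NeZero M] {O : Subring ℂ}

/-- PROOF: `sndO_conj_eq`; `vF_smul_of_mem_Gamma0`, `isExp_vF M`, `coeffMap_iotaN O.subtype M (VZ M)` (`iotaN ℂ M = iotaC M` is `rfl`). -/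
theorem sndO_conj_vF_of_mem (hO : Good M O) (γ : SL(2, ℤ)) (hγ : γ ∈ Gamma0 M) :
    sndO (conj (vF M) (hasExpO_vF hO) γ) = iotaN O M (VZ M) := by
  apply sndO_conj_eq
  rw [coeffMap_iotaN O.subtype M (VZ M)]
  have h : (fun τ => vF M (γ • τ)) = vF M := funext (vF_smul_of_mem_Gamma0 M γ hγ)
  rw [h]
  exact isExp_vF M

/-- PROOF: `exists_isExp_vF_smul M γ` gives `f`; `IsExp.unique` with `isExp_symO (conj …)` (whose function is `fun τ => vF M (γ • τ)` by `fstO_conj`)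
identifies `coeffMap O.subtype (sndO …) = f`; `coeffMap_coeff`; `Subtype.ext`. -/
theorem coeff_sndO_conj_vF (hO : Good M O) (γ : SL(2, ℤ)) (hγ : γ ∉ Gamma0 M) (m : ℤ) (hm : m ≤ 0) :
    (sndO (conj (vF M) (hasExpO_vF hO) γ)).coeff m = 0 := by
  obtain ⟨f, hf, hf2⟩ := exists_isExp_vF_smul M γ
  have hM : 0 < M := Nat.pos_of_ne_zero (NeZero.ne M)
  have h1 : coeffMap O.subtype (sndO (conj (vF M) (hasExpO_vF hO) γ)) = f :=
    IsExp.unique hM (isExp_symO (conj (vF M) (hasExpO_vF hO) γ)) hf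
  have h2 := (hf2 hγ).1 m hm
  rw [← h1, coeffMap_coeff] at h2
  exact Subtype.ext h2

/-- PROOF: as above; the coefficient `c = f.coeff m ≠ 0` with `c⁻¹ ∈ O` is a unit of `O`, so `res c ≠ 0` (copy from `GR.D.Vert.exists_model`, `hvsκ`,
file `Fermat/Agent/GR/D/Vert/Model.lean`). -/
theorem redO_conj_vF_ne_zero (hO : Good M O) {κ : Type*} [Field κ] (res : O →+* κ) (γ : SL(2, ℤ))
    (hγ : γ ∉ Gamma0 M) : redO res (conj (vF M) (hasExpO_vF hO) γ) ≠ 0 := by
  obtain ⟨f, hf, hf2⟩ := exists_isExp_vF_smul M γ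
  have hM : 0 < M := Nat.pos_of_ne_zero (NeZero.ne M)
  have h1 : coeffMap O.subtype (sndO (conj (vF M) (hasExpO_vF hO) γ)) = f :=
    IsExp.unique hM (isExp_symO (conj (vF M) (hasExpO_vF hO) γ)) hf
  obtain ⟨-, m, hm0, hminv⟩ := (hf2 hγ).2 O hO.inv hO.root
  intro h0
  have hc : (((sndO (conj (vF M) (hasExpO_vF hO) γ)).coeff m : O) : ℂ) = f.coeff m := by
    rw [← h1, coeffMap_coeff]
    rfl
  have hunit : (sndO (conj (vF M) (hasExpO_vF hO) γ)).coeff m * ⟨(f.coeff m)⁻¹, hminv⟩ = 1 := by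
    apply Subtype.ext
    show (((sndO (conj (vF M) (hasExpO_vF hO) γ)).coeff m : O) : ℂ) * (f.coeff m)⁻¹ = 1
    rw [hc, mul_inv_cancel₀ hm0]
  have h3 : res ((sndO (conj (vF M) (hasExpO_vF hO) γ)).coeff m) = 0 := by
    have h4 := congrArg (fun g : LaurentSeries κ => g.coeff m) h0
    have h5 : (redO res (conj (vF M) (hasExpO_vF hO) γ)).coeff m =
        res ((sndO (conj (vF M) (hasExpO_vF hO) γ)).coeff m) := coeffMap_coeff _ _ _
    rw [← h5]
    exact h4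
  have h6 := congrArg res hunit
  rw [map_mul, h3, zero_mul, map_one] at h6
  exact zero_ne_one h6

/-- passage from level `1` to level `M` for expansions. -/
theorem Exp_isExp_level {h : ℍ → ℂ} {f : LaurentSeries ℂ} (H : IsExp 1 h f) :
    IsExp M h (qExpand ℂ M f) := by
  have h1 := H.comp_affH (N := M) (a := 1) (δ := 1) (m := M) 0
    (Nat.pos_of_ne_zero (NeZero.ne M)) one_pos one_pos (by ring)
  rw [sym_rootU_zero_one, substL_one] at h1
  exact h1.congr fun τ => by rw [sym_affH_one]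

theorem Exp_not_dvd_of_mem_Gamma0 (hM : 1 < M) (γ : SL(2, ℤ)) (hγ : γ ∈ Gamma0 M) :
    ¬ (M : ℤ) ∣ γ 0 0 := by
  intro h
  have hdet : γ 0 0 * γ 1 1 - γ 0 1 * γ 1 0 = 1 := by
    have := γ.det_coe
    rwa [Matrix.det_fin_two] at this
  have h10 : (M : ℤ) ∣ γ 1 0 := by
    rw [← ZMod.intCast_zmod_eq_zero_iff_dvd]
    exact (Gamma0_mem).mp hγ
  apply not_dvd_one hM
  rw [← hdet]
  exact dvd_sub (Dvd.dvd.mul_right h _) (Dvd.dvd.mul_left h10 _)

theorem Exp_coeff_qExpand_deltaInvL (j : ℤ) (hj : j < -(M : ℤ)) :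
    (qExpand ℂ M (deltaInvL ℂ)).coeff j = 0 := by
  by_cases hd : (M : ℤ) ∣ j
  · obtain ⟨k, rfl⟩ := hd
    rw [qExpand_coeff_mul]
    have hM0 : (0 : ℤ) < M := by exact_mod_cast Nat.pos_of_ne_zero (NeZero.ne M)
    have hk : k + 1 < 0 := by nlinarith
    have e : k = (k + 1) + (-1) := by ring
    rw [deltaInvL, e, HahnSeries.coeff_single_mul_add, ofPowerSeries_coeff_of_neg _ hk, mul_zero]
  · exact qExpand_coeff_of_not_dvd _ _ hd

/-- PROOF: `sndO_conj_eq`; `genF_smul_of_mem_Gamma0 M 1 1 (one_dvd M) γ hγ τ : genF M 1 1 (γ • τ) = genF M (γ 0 0 * 1) 1 τ`; `isExp_genF M b hb 1 : IsExp 1 (genF M b 1) (uB ℂ M 1 b)`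
(`¬ M ∣ γ 0 0` because `γ 0 0 * γ 1 1 ≡ 1 mod M`, `hM`); pass from level `1` to level `M` as in `S28.isExp_jF_level` (`IsExp.comp_affH` with `a = δ = 1`, `b = 0`, `m = M`,
`sym_rootU_zero_one`, `substL_one`, `sym_affH_one`); `coeffMap_qExpand`, `coeffMap_uB`. -/
theorem sndO_conj_genF_of_mem (hO : Good M O) (hM : 1 < M) (γ : SL(2, ℤ)) (hγ : γ ∈ Gamma0 M) :
    sndO (conj (genF M 1 1) (hasExpO_genF hO 1 (not_dvd_one hM) 1 (one_dvd M)) γ) =
      qExpand O M (uB O M 1 ((γ 0 0 : ℤ) : ZMod M)) := by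
  apply sndO_conj_eq
  rw [coeffMap_qExpand, coeffMap_uB]
  refine (Exp_isExp_level (isExp_genF M (γ 0 0) (Exp_not_dvd_of_mem_Gamma0 hM γ hγ) 1)).congr
    fun τ => ?_
  rw [genF_smul_of_mem_Gamma0 M 1 1 (one_dvd M) γ hγ τ, mul_one]

/-- the conjugates of `e₁/Δ` have a pole of order at most `M` in `t`.
PROOF: `Gen_genF_one_smul M 1 γ τ` (file `G1/A/Gen.lean`): `genF M 1 1 (γ • τ) = (eisF M 1 ∣[12] γ) τ / Δ(τ)`; `G1.AN.exists_isExp_eisF_slash_int` gives the expansion `F` of the numerator,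
with `F.coeff m = 0` for `m < 0`; `isExp_delta_inv` at level `M` (as in `isExp_jF_level`) gives `qExpand ℂ M (deltaInvL ℂ)`, whose coefficients vanish below `-M`;
`IsExp.mul`, `IsExp.unique`; coefficients of a product (`HahnSeries.coeff_mul` or orders: `HahnSeries.order_mul`, `HahnSeries.coeff_eq_zero_of_lt_order`). -/
theorem coeff_sndO_conj_genF (hO : Good M O) (hM : 1 < M) (γ : SL(2, ℤ)) (m : ℤ) (hm : m < -(M : ℤ)) :
    (sndO (conj (genF M 1 1) (hasExpO_genF hO 1 (not_dvd_one hM) 1 (one_dvd M)) γ)).coeff m = 0 := by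
  obtain ⟨F, hF, hF0, -⟩ := G1.AN.exists_isExp_eisF_slash_int M 1 (not_dvd_one hM) γ
  have hΔ : IsExp M (fun τ => (DeltaF τ)⁻¹) (qExpand ℂ M (deltaInvL ℂ)) :=
    Exp_isExp_level isExp_delta_inv
  have hprod : IsExp M (fun τ => genF M 1 1 (γ • τ)) (F * qExpand ℂ M (deltaInvL ℂ)) :=
    (hF.mul hΔ).congr fun τ => by
      rw [Gen_genF_one_smul, Pi.mul_apply, div_eq_mul_inv]
  have huniq := IsExp.unique (Nat.pos_of_ne_zero (NeZero.ne M))
    (isExp_symO (conj (genF M 1 1) (hasExpO_genF hO 1 (not_dvd_one hM) 1 (one_dvd M)) γ)) hprod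
  have hc : (F * qExpand ℂ M (deltaInvL ℂ)).coeff m = 0 := by
    rw [HahnSeries.coeff_mul]
    apply Finset.sum_eq_zero
    rintro ⟨i, j⟩ hij
    rw [Finset.mem_antidiagonal] at hij
    obtain ⟨-, -, hsum⟩ := hij
    simp only at hsum
    by_cases hi0 : i < 0
    · rw [hF0 i hi0, zero_mul]
    · rw [Exp_coeff_qExpand_deltaInvL j (by omega), mul_zero]
  apply Subtype.ext
  have h2 := congrArg (fun f => f.coeff m) huniq
  simp only [coeffMap_coeff] at h2
  rw [hc] at h2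
  exact h2

end

end Fermat.Agent.G1.IG3
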