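import Fermat.Agent.G1.IG3.Final
import Fermat.Agent.G1.IG.Inputs
import Fermat.Agent.G1.D.Close

/-!
# G1-IG3: exports: `VertIn` and `ModelExists`
-/

set_option autoImplicit false

namespace Fermat.Agent.G1.IG3

theorem vertIn : D.VertIn := IG.vertIn_of_model fun N _ ℓ _ h => model1 N ℓ h

theorem modelExists : E.ModelExists := D.modelExists_of_vert vertIn

end Fermat.Agent.G1.IG3
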