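import Fermat.Agent.G1.IG3.Ring

/-!
# G1-IG3: the family of conjugates of a function invariant under a subgroup `H ≤ SL₂(ℤ)`
-/

set_option autoImplicit false

namespace Fermat.Agent.G1.IG3

open ModularCurve Polynomial UpperHalfPlane Fermat.Agent.S28
open scoped MatrixGroups Manifold

noncomputable section

variable {N : ℕ} {O : Subring ℂ}

/-- `φ` is holomorphic and all its conjugates `φ ∘ γ` have expansions in `t = q^{1/N}` with coefficients in `O`. -/
def HasExpO (N : ℕ) (O : Subring ℂ) (φ : ℍ → ℂ) : Prop :=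
  MDiff φ ∧ ∀ γ : SL(2, ℤ), ∃ F : LaurentSeries O, IsExp N (fun τ => φ (γ • τ)) (coeffMap O.subtype F)

/-- the conjugate `φ ∘ γ` as an element of `symO N O`. -/
def conj (φ : ℍ → ℂ) (hφ : HasExpO N O φ) (γ : SL(2, ℤ)) : symO N O :=
  ⟨(fun τ => φ (γ • τ), Classical.choose (hφ.2 γ)), Classical.choose_spec (hφ.2 γ),
    mdiff_comp_smul hφ.1 γ⟩

theorem fstO_conj (φ : ℍ → ℂ) (hφ : HasExpO N O φ) (γ : SL(2, ℤ)) :
    fstO (conj φ hφ γ) = fun τ => φ (γ • τ) := rfl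

/-- the family of conjugates, indexed by `SL₂(ℤ)/H`: the coset `g H` gives `φ ∘ g⁻¹`. -/
def fam (H : Subgroup SL(2, ℤ)) (φ : ℍ → ℂ) (hφ : HasExpO N O φ) (q : SL(2, ℤ) ⧸ H) : symO N O :=
  conj φ hφ (Quotient.out q)⁻¹

end

end Fermat.Agent.G1.IG3
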