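import Fermat.Agent.G1.IG3.Fam

/-!
# G1-IG3: basic properties of `HasExpO`, `conj`, `fam`
-/

set_option autoImplicit false

namespace Fermat.Agent.G1.IG3

open ModularCurve Polynomial UpperHalfPlane Fermat.Agent.S28
open scoped MatrixGroups Manifold

noncomputable section

variable {N : ℕ} {O : Subring ℂ}

/-- an element of `symO N O` is determined by its function (`IsExp.unique`, `coeffMap_injective _ Subtype.val_injective`,
`Subtype.ext`, `Prod.ext`). -/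
theorem symO_ext [NeZero N] {s s' : symO N O} (h : fstO s = fstO s') : s = s' := by
  have hN : 0 < N := Nat.pos_of_ne_zero (NeZero.ne N)
  have h1 := isExp_symO s
  have h2 := isExp_symO s'
  rw [h] at h1
  have h3 := h1.unique hN h2
  have h4 : sndO s = sndO s' := coeffMap_injective _ O.subtype_injective h3
  exact Subtype.ext (Prod.ext h h4)

/-- `IsExp.add`, `map_add`. -/
theorem HasExpO.add {φ ψ : ℍ → ℂ} (hφ : HasExpO N O φ) (hψ : HasExpO N O ψ) :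
    HasExpO N O (fun τ => φ τ + ψ τ) := by
  refine ⟨hφ.1.add hψ.1, fun γ => ?_⟩
  obtain ⟨F, hF⟩ := hφ.2 γ
  obtain ⟨G, hG⟩ := hψ.2 γ
  refine ⟨F + G, ?_⟩
  rw [map_add]
  exact hF.add hG

/-- `IsExp.pow`, `map_pow`. -/
theorem HasExpO.pow {φ : ℍ → ℂ} (hφ : HasExpO N O φ) (n : ℕ) : HasExpO N O (fun τ => φ τ ^ n) := by
  refine ⟨hφ.1.pow n, fun γ => ?_⟩
  obtain ⟨F, hF⟩ := hφ.2 γ
  refine ⟨F ^ n, ?_⟩
  rw [map_pow]
  exact hF.pow n

/-- `symO_ext`. -/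
theorem conj_add [NeZero N] {φ ψ : ℍ → ℂ} (hφ : HasExpO N O φ) (hψ : HasExpO N O ψ) (γ : SL(2, ℤ)) :
    conj (fun τ => φ τ + ψ τ) (hφ.add hψ) γ = conj φ hφ γ + conj ψ hψ γ := by
  apply symO_ext
  rw [map_add, fstO_conj, fstO_conj, fstO_conj]
  rfl

/-- `symO_ext`. -/
theorem conj_pow [NeZero N] {φ : ℍ → ℂ} (hφ : HasExpO N O φ) (n : ℕ) (γ : SL(2, ℤ)) :
    conj (fun τ => φ τ ^ n) (hφ.pow n) γ = conj φ hφ γ ^ n := by
  apply symO_ext
  rw [map_pow, fstO_conj, fstO_conj]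
  rfl

/-- computing the expansion of a conjugate (`IsExp.unique`, `coeffMap_injective`). -/
theorem sndO_conj_eq [NeZero N] {φ : ℍ → ℂ} (hφ : HasExpO N O φ) (γ : SL(2, ℤ)) (F : LaurentSeries O)
    (hF : IsExp N (fun τ => φ (γ • τ)) (coeffMap O.subtype F)) : sndO (conj φ hφ γ) = F := by
  have hN : 0 < N := Nat.pos_of_ne_zero (NeZero.ne N)
  have h1 := isExp_symO (conj φ hφ γ)
  rw [fstO_conj] at h1
  exact coeffMap_injective _ O.subtype_injective (h1.unique hN hF)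

/-- `symO_ext`; `(h * γ) • τ = h • γ • τ` (`mul_smul`). -/
theorem conj_mul_of_mem [NeZero N] {H : Subgroup SL(2, ℤ)} {φ : ℍ → ℂ} (hφ : HasExpO N O φ)
    (hinv : ∀ h ∈ H, ∀ τ, φ (h • τ) = φ τ) (h : SL(2, ℤ)) (hh : h ∈ H) (γ : SL(2, ℤ)) :
    conj φ hφ (h * γ) = conj φ hφ γ := by
  apply symO_ext
  rw [fstO_conj, fstO_conj]
  funext τ
  rw [mul_smul, hinv h hh]

/-- the member of the family at the coset `g H` is `φ ∘ g⁻¹`
(`QuotientGroup.mk_out_eq_mul H g : ∃ h : H, (mk g).out = g * h`; `(g * h)⁻¹ = h⁻¹ * g⁻¹`; `conj_mul_of_mem`). -/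
theorem fam_mk [NeZero N] {H : Subgroup SL(2, ℤ)} {φ : ℍ → ℂ} (hφ : HasExpO N O φ)
    (hinv : ∀ h ∈ H, ∀ τ, φ (h • τ) = φ τ) (g : SL(2, ℤ)) :
    fam H φ hφ (g : SL(2, ℤ) ⧸ H) = conj φ hφ g⁻¹ := by
  obtain ⟨h, hh⟩ := QuotientGroup.mk_out_eq_mul H g
  unfold fam
  rw [hh, mul_inv_rev]
  exact conj_mul_of_mem hφ hinv _ (H.inv_mem h.2) _

/-- equivariance (induction on the coset `q = mk g`, `fam_mk`, `γ • mk g = mk (γ * g)`, `mul_inv_rev`, `mul_smul`). -/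
theorem eqv_fam [NeZero N] {H : Subgroup SL(2, ℤ)} {φ : ℍ → ℂ} (hφ : HasExpO N O φ)
    (hinv : ∀ h ∈ H, ∀ τ, φ (h • τ) = φ τ) : Eqv actO fstO (fam H φ hφ) := by
  intro γ q
  induction q using QuotientGroup.induction_on with
  | H g =>
    rw [fam_mk hφ hinv,
      show γ • (g : SL(2, ℤ) ⧸ H) = ((γ * g : SL(2, ℤ)) : SL(2, ℤ) ⧸ H) from rfl,
      fam_mk hφ hinv, fstO_conj, fstO_conj]
    funext τ
    rw [actO_apply, mul_inv_rev, mul_smul]

end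

end Fermat.Agent.G1.IG3
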