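import Fermat.Agent.G1.IG3.Core

/-!
# G1-IG3: `IG.Model1 N ℓ` for all `N`, `ℓ ∤ N`
-/

set_option autoImplicit false

namespace Fermat.Agent.G1.IG3

open ModularCurve Polynomial Fermat.Agent.S28 Fermat.Agent.G1.A

theorem model1 (N : ℕ) [NeZero N] (ℓ : ℕ) [Fact ℓ.Prime] (hℓN : ¬ ℓ ∣ N) : IG.Model1 N ℓ := by
  by_cases h1 : N = 1
  · subst h1
    exact IG.model1_one ℓ
  have hM : 1 < N := by
    have := NeZero.ne N
    omega
  obtain ⟨O, κ, _, _, res, hN, hζ, hOQ⟩ := exists_good_subring ℓ N hℓN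
  exact IG.model1_of_coreSpec N ℓ _ (VZ1 N) (genSet N)
    (fun d _ hd => Or.inl ⟨d, ‹_›, hd, rfl⟩)
    (fun d _ b hd hb => Or.inr ⟨d, ‹_›, b, hd, hb, rfl⟩)
    (⊤ : Subring ℂ).subtype
    (coreSpec ⟨Subring.mem_top _, fun _ _ => Subring.mem_top _⟩ hM _) O res hOQ
    (coreSpec ⟨hN, hζ⟩ hM res)

end Fermat.Agent.G1.IG3
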