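import Fermat.Agent.G1.IG3.Ring

/-!
# G1-IG3: the invariance principle for the concrete ring
-/

set_option autoImplicit false

namespace Fermat.Agent.G1.IG3

open ModularCurve Polynomial UpperHalfPlane Fermat.Agent.S28
open scoped MatrixGroups Manifold

noncomputable section

variable {N : ℕ} {O : Subring ℂ}

/-- **The invariance principle over `O[j]`.**
PROOF: `S28.sym_general`/its `key` step: `hexp := isExp_symO s`, `hhol := mdiff_symO s`; invariance `fstO s (γ • τ) = fstO s τ` from `h γ⁻¹`;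
`hexp.exists_isBoundedAtImInfty`, `exists_poly_of_invariant` give `P₀ : ℂ[X]` with `fstO s τ = P₀.eval (jF τ)`; `(isExp_jF_level N).aeval P₀`
and `IsExp.unique` give `evP ℂ (JC N) P₀ = coeffMap O.subtype (sndO s)`.  All coefficients of `P₀` are in `O`:
`coeff_mem_of_evP_qExpand_jqModC O N P₀ (fun m => …) a` (file `S28/DescPeel.lean`; `JC N = qExpand ℂ N (jqModC ℂ)` by definition).
Lift `P₀` to `P : O[X]` (`Polynomial.lifts_iff_coeff_lifts`, or `Polynomial.toSubring`), and use injectivity of `coeffMap O.subtype`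
(`coeffMap_injective`) with `map_evP`/`coeffMap_JN` (see `S28/DescModL.lean`, `S28/DescBasic.lean`). -/
theorem inv_symO [NeZero N] (s : symO N O) (h : ∀ γ, actO γ (fstO s) = fstO s) :
    ∃ P : O[X], evP O (JN O N) P = sndO s := by
  have hN : 0 < N := Nat.pos_of_ne_zero (NeZero.ne N)
  have hexp := isExp_symO s
  have hhol := mdiff_symO s
  have hi : ∀ (γ : SL(2, ℤ)) (τ : ℍ), fstO s (γ • τ) = fstO s τ := by
    intro γ τ
    have h1 := congrFun (h γ⁻¹) τ
    rwa [actO_apply, inv_inv] at h1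
  obtain ⟨M, hM⟩ := hexp.exists_isBoundedAtImInfty hN
  obtain ⟨P₀, hP₀⟩ := exists_poly_of_invariant _ hhol hi M hM
  have h3 : IsExp N (fstO s) (evP ℂ (JC N) P₀) := by
    have h4 := (isExp_jF_level N).aeval P₀
    have h5 : (fun τ => P₀.eval (jF τ)) = fstO s := by
      funext τ
      exact (hP₀ τ).symm
    rwa [h5] at h4
  have h6 : evP ℂ (JC N) P₀ = coeffMap O.subtype (sndO s) := h3.unique hN hexp
  have hmem : ∀ a, P₀.coeff a ∈ O := by
    intro a
    refine coeff_mem_of_evP_qExpand_jqModC O N P₀ (fun m => ?_) a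
    have h7 : evP ℂ (qExpand ℂ N (jqModC ℂ)) P₀ = coeffMap O.subtype (sndO s) := h6
    rw [h7, coeffMap_coeff]
    exact ((sndO s).coeff m).2
  have hlift : P₀ ∈ Polynomial.lifts O.subtype := by
    rw [Polynomial.lifts_iff_coeff_lifts]
    intro a
    exact ⟨⟨P₀.coeff a, hmem a⟩, rfl⟩
  obtain ⟨P, hP⟩ := hlift
  refine ⟨P, ?_⟩
  apply coeffMap_injective O.subtype Subtype.val_injective
  rw [map_evP O.subtype (coeffMap O.subtype)
    (coeffMap_algebraMap' O.subtype O.subtype fun _ => rfl), coeffMap_JN, ← h6]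
  have hP' : P.map O.subtype = P₀ := hP
  rw [hP']
  rfl

theorem inv_sndO [NeZero N] : Inv actO (fstO (N := N) (O := O)) sndO (evP O (JN O N)) :=
  fun s h => by
    obtain ⟨P, hP⟩ := inv_symO s h
    exact ⟨P, hP⟩

/-- the invariance principle for the reduced expansions, over `κ(j)`.
PROOF: `inv_symO`; `coeffMap res (evP O (JN O N) P) = evP κ (JN κ N) (P.map res)` (`map_evP res (coeffMap res) (coeffMap_algebraMap' res res fun _ => rfl)`,
`coeffMap_JN`), then `algebraMap_KJ`. -/
theorem inv_redO [NeZero N] {κ : Type*} [Field κ] (res : O →+* κ) :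
    Inv actO (fstO (N := N) (O := O)) (redO res) (algebraMap (KJ κ N) (LaurentSeries κ)) := by
  intro s h
  obtain ⟨P, hP⟩ := inv_symO s h
  refine ⟨algebraMap κ[X] (KJ κ N) (P.map res), ?_⟩
  rw [algebraMap_KJ]
  show _ = coeffMap res (sndO s)
  rw [← hP, map_evP res (coeffMap res) (coeffMap_algebraMap' res res fun _ => rfl), coeffMap_JN]

end

end Fermat.Agent.G1.IG3
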