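import Mathlib

/-!
# G1-IG3: a split polynomial with conjugate roots and one simple root is irreducible
-/

set_option autoImplicit false

namespace Fermat.Agent.G1.IG3

open Polynomial

/-- If all roots of a split polynomial `A` defined over `𝕂` are conjugate and one of them is simple,
then `A` is irreducible.
PROOF: `A` is monic (`Polynomial.monic_of_injective`/`Monic.of_map`… from `hA` and `monic_prod_of_monic`), every `θ x` is a root
of `A`, hence integral. `m := minpoly 𝕂 (θ x₀)` divides `A` (`minpoly.dvd`): `A = m * W₂`.  If `W₂` is not a unit, then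
`W₂.map _` has positive degree and divides the split product, so it has a root, which is one of the `θ y`
(`Polynomial.Splits` of a divisor, or: `natDegree` induction; e.g. `(hA ▸ …).splits`, `exists_root_of_splits`,
`Polynomial.root_prod…`: `eval` of the product vanishes iff some `θ y` equals the root, `Finset.prod_eq_zero_iff`);
`m = minpoly 𝕂 (θ y) ∣ W₂`; so `m ^ 2 ∣ A` and `(X - C (θ x₀)) ^ 2 ∣ ∏ x, (X - C (θ x))`; dividing by the factor `x₀`
(`Finset.mul_prod_erase`) and evaluating at `θ x₀` contradicts `hs`.  So `W₂` is a unit and `A` is associated to the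
irreducible `m`. -/
theorem irreducible_of_minpoly_eq {𝕂 𝕃 : Type*} [Field 𝕂] [Field 𝕃] [Algebra 𝕂 𝕃]
    {X' : Type*} [Fintype X'] [DecidableEq X'] (θ : X' → 𝕃) (A : 𝕂[X])
    (hA : A.map (algebraMap 𝕂 𝕃) = ∏ x, (X - C (θ x))) (x₀ : X')
    (hs : ∀ x, x ≠ x₀ → θ x ≠ θ x₀)
    (hmin : ∀ x, minpoly 𝕂 (θ x) = minpoly 𝕂 (θ x₀)) : Irreducible A := by
  have hprodmonic : (∏ x, (X - C (θ x)) : 𝕃[X]).Monic := monic_prod_of_monic _ _ fun x _ => monic_X_sub_C _
  have hAmonic : A.Monic := by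
    apply Polynomial.monic_of_injective (algebraMap 𝕂 𝕃).injective
    rw [hA]
    exact hprodmonic
  have hroot : ∀ x, aeval (θ x) A = 0 := by
    intro x
    rw [aeval_def, ← eval_map, hA, eval_prod]
    exact Finset.prod_eq_zero (Finset.mem_univ x) (by simp)
  have hint : ∀ x, IsIntegral 𝕂 (θ x) := fun x => ⟨A, hAmonic, by
    have := hroot x
    rwa [aeval_def] at this⟩
  set m := minpoly 𝕂 (θ x₀) with hm
  have hmirr : Irreducible m := minpoly.irreducible (hint x₀)
  obtain ⟨W₂, hW₂⟩ : m ∣ A := minpoly.dvd 𝕂 (θ x₀) (hroot x₀)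
  have hA0 : A ≠ 0 := hAmonic.ne_zero
  have hW0 : W₂ ≠ 0 := by
    rintro rfl
    exact hA0 (by rw [hW₂, mul_zero])
  by_cases hu : IsUnit W₂
  · rw [hW₂]
    exact (irreducible_mul_isUnit hu).2 hmirr
  exfalso
  -- `W₂` has a root among the `θ y`
  have hsplit : (W₂.map (algebraMap 𝕂 𝕃)).Splits := by
    have h1 : (A.map (algebraMap 𝕂 𝕃)).Splits := by
      rw [hA]
      exact Splits.prod fun x _ => Splits.X_sub_C _
    refine Splits.of_dvd h1 ((Polynomial.map_ne_zero_iff (algebraMap 𝕂 𝕃).injective).2 hA0) ?_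
    rw [hW₂, Polynomial.map_mul]
    exact Dvd.intro_left _ rfl
  have hdeg : (W₂.map (algebraMap 𝕂 𝕃)).degree ≠ 0 := by
    rw [degree_map]
    intro h0
    exact hu (isUnit_iff_degree_eq_zero.2 h0)
  obtain ⟨z, hz⟩ := hsplit.exists_eval_eq_zero hdeg
  have hzA : (A.map (algebraMap 𝕂 𝕃)).eval z = 0 := by
    rw [hW₂, Polynomial.map_mul, eval_mul, hz, mul_zero]
  rw [hA, eval_prod, Finset.prod_eq_zero_iff] at hzA
  obtain ⟨y, -, hy⟩ := hzA
  have hzy : z = θ y := by
    simpa [sub_eq_zero] using hy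
  have hmW : m ∣ W₂ := by
    rw [← hmin y]
    apply minpoly.dvd
    rw [aeval_def, ← eval_map, ← hzy]
    exact hz
  obtain ⟨W₃, hW₃⟩ := hmW
  -- `(X - C (θ x₀)) ∣ m`
  have hlin : (X - C (θ x₀)) ∣ m.map (algebraMap 𝕂 𝕃) := by
    rw [dvd_iff_isRoot, IsRoot.def, eval_map, ← aeval_def]
    exact minpoly.aeval _ _
  obtain ⟨u, hu'⟩ := hlin
  have hsq : (X - C (θ x₀)) * ((X - C (θ x₀)) * (u * u * W₃.map (algebraMap 𝕂 𝕃)))
      = (X - C (θ x₀)) * ∏ x ∈ Finset.univ.erase x₀, (X - C (θ x)) := by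
    rw [Finset.mul_prod_erase Finset.univ (fun x => X - C (θ x)) (Finset.mem_univ x₀), ← hA, hW₂, hW₃,
      Polynomial.map_mul, Polynomial.map_mul, hu']
    ring
  have h2 := mul_left_cancel₀ (X_sub_C_ne_zero (θ x₀)) hsq
  have h3 := congrArg (eval (θ x₀)) h2
  rw [eval_mul, eval_sub, eval_X, eval_C, sub_self, zero_mul, eval_prod] at h3
  have h4 := Finset.prod_eq_zero_iff.1 h3.symm
  obtain ⟨x, hx, hx0⟩ := h4
  rw [eval_sub, eval_X, eval_C, sub_eq_zero] at hx0
  exact hs x (Finset.ne_of_mem_erase hx) hx0.symm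

end Fermat.Agent.G1.IG3
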