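import Fermat.Agent.G1.IG3.Conc
import Fermat.Agent.G1.IG3.Group

/-!
# G1-IG3: (T) the translation `τ ↦ τ + 1` acts on `κ((t))` over `κ(j)`
-/

set_option autoImplicit false

namespace Fermat.Agent.G1.IG3

open ModularCurve Polynomial UpperHalfPlane CongruenceSubgroup Fermat.Agent.S28 Fermat.Agent.G1.A
  Fermat.Agent.GR
open scoped MatrixGroups Manifold

noncomputable section

variable {M : ℕ} [NeZero M] {O : Subring ℂ}

theorem TStab_scaleHom_JN {κ : Type*} [Field κ] (c : κˣ) (hc : c ^ M = 1) :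
    scaleHom c (JN κ M) = JN κ M := by
  ext n
  rw [scaleHom_coeff]
  by_cases hn : (M : ℤ) ∣ n
  · obtain ⟨k, rfl⟩ := hn
    rw [zpow_mul, zpow_natCast, hc, one_zpow, Units.val_one, one_mul]
  · rw [qExpand_coeff_of_not_dvd _ _ hn, mul_zero]

theorem TStab_scaleHom_comp {κ : Type*} [Field κ] (c : κˣ) (hc : c ^ M = 1) :
    (scaleHom c).comp (algebraMap (KJ κ M) (LaurentSeries κ))
      = algebraMap (KJ κ M) (LaurentSeries κ) := by
  apply IsLocalization.ringHom_ext (nonZeroDivisors κ[X])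
  apply Polynomial.ringHom_ext
  · intro a
    simp only [RingHom.comp_apply, algebraMap_KJ]
    show scaleHom c (Polynomial.aeval (JN κ M) (C a)) = Polynomial.aeval (JN κ M) (C a)
    rw [Polynomial.aeval_C, algebraMap_laurentSeries_eq_single]
    ext n
    rw [scaleHom_coeff, HahnSeries.coeff_single]
    split_ifs with hn
    · subst hn
      rw [zpow_zero, Units.val_one, one_mul]
    · rw [mul_zero]
  · simp only [RingHom.comp_apply, algebraMap_KJ]
    show scaleHom c (Polynomial.aeval (JN κ M) X) = Polynomial.aeval (JN κ M) X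
    rw [Polynomial.aeval_X, TStab_scaleHom_JN c hc]

/-- `t ↦ c t` with `c^M = 1` is an automorphism of `κ((t))` over `κ(j(t^M))`.
PROOF: `scaleHom c (JN κ M) = JN κ M` (coefficientwise: `scaleFun_coeff`/`scaleHom` multiplies the coefficient of `t^n` by `c^n`; the coefficients of `qExpand κ M f` vanish unless `M ∣ n`);
`scaleHom c` fixes constants; so `(scaleHom c).comp (algebraMap (KJ κ M) _) = algebraMap (KJ κ M) _` (`IsFractionRing.ringHom_ext`/`IsLocalization.ringHom_ext (nonZeroDivisors κ[X])`, `algebraMap_KJ`,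
`Polynomial.ringHom_ext`); make it an `AlgHom` and use `minpoly.algHom_eq _ (RingHom.injective _)`. -/
theorem minpoly_scaleHom {κ : Type*} [Field κ] (c : κˣ) (hc : c ^ M = 1) (x : LaurentSeries κ) :
    minpoly (KJ κ M) (scaleHom c x) = minpoly (KJ κ M) x := by
  let φ : LaurentSeries κ →ₐ[KJ κ M] LaurentSeries κ :=
    { scaleHom c with
      commutes' := fun r => RingHom.congr_fun (TStab_scaleHom_comp c hc) r }
  exact minpoly.algHom_eq φ φ.toRingHom.injective x

theorem TStab_rootU_pow (M : ℕ) [NeZero M] : (rootU (-1) M) ^ M = 1 := by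
  have hM : (M : ℂ) ≠ 0 := Nat.cast_ne_zero.mpr (NeZero.ne M)
  apply Units.ext
  rw [Units.val_pow_eq_pow_val, rootU, Units.val_mk0, ← Complex.exp_nat_mul, Units.val_one]
  have : (M : ℂ) * (2 * Real.pi * Complex.I * ((-1 : ℤ) : ℂ) / M) =
      ((-1 : ℤ) : ℂ) * (2 * Real.pi * Complex.I) := by
    field_simp
  rw [this]
  exact Complex.exp_int_mul_two_pi_mul_I (-1)

theorem TStab_tParam_T_inv (M : ℕ) [NeZero M] (τ : ℍ) :
    tParam M (ModularGroup.T⁻¹ • τ) = (rootU (-1) M : ℂ) * tParam M τ := by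
  have hM : (M : ℂ) ≠ 0 := Nat.cast_ne_zero.mpr (NeZero.ne M)
  have h1 : ((ModularGroup.T⁻¹ • τ : ℍ) : ℂ) = τ + ((-1 : ℤ) : ℂ) := by
    have := ModularGroup.coe_T_zpow_smul_eq (z := τ) (n := -1)
    rwa [zpow_neg_one] at this
  rw [tParam, tParam, h1, Function.Periodic.qParam, Function.Periodic.qParam, rootU,
    Units.val_mk0, ← Complex.exp_add]
  congr 1
  push_cast
  field_simp
  ring

theorem TStab_isExp_T {h : ℍ → ℂ} {F : LaurentSeries ℂ} (H : IsExp M h F) :
    IsExp M (actO ModularGroup.T h) (scaleHom (rootU (-1) M) F) := by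
  intro τ
  have := H (ModularGroup.T⁻¹ • τ)
  rw [actO_apply]
  convert this using 2 with k
  rw [scaleHom_coeff, TStab_tParam_T_inv, mul_zpow, Units.val_zpow_eq_zpow_val]
  ring

/-- the expansion of `h(τ - 1)`.
PROOF: `ζ := rootU (-1) M` (`= exp(-2πi/M)`), `ζ^M = 1`, so `ζ, ζ⁻¹ ∈ O` (`hO.root`): a unit `u : Oˣ`; `c := Units.map res u`.
`tParam M (T⁻¹ • τ) = ζ * tParam M τ` (`ModularGroup.coe_T_inv_smul`/`UpperHalfPlane.modular_T_zpow_smul`, `Function.Periodic.qParam`, `Complex.exp_add`; compare `S28.tParam_affH`), hence from the definition of `IsExp` (termwise):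
`IsExp M h F → IsExp M (fun τ => h (T⁻¹ • τ)) (scaleHom ζ F)`.  `IsExp.unique` + `coeffMap_injective` give `sndO s' = scaleHom u (sndO s)`; apply `coeffMap res` (coefficientwise). -/
theorem exists_scale (hO : Good M O) {κ : Type*} [Field κ] (res : O →+* κ) :
    ∃ c : κˣ, c ^ M = 1 ∧ ∀ s s' : symO M O, fstO s' = actO ModularGroup.T (fstO s) →
      redO res s' = scaleHom c (redO res s) := by
  have hζM : (rootU (-1) M) ^ M = 1 := TStab_rootU_pow M
  have h1 : ((rootU (-1) M : ℂˣ) : ℂ) ∈ O := hO.root _ (by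
    rw [← Units.val_pow_eq_pow_val, hζM, Units.val_one])
  have h2 : (((rootU (-1) M)⁻¹ : ℂˣ) : ℂ) ∈ O := hO.root _ (by
    rw [← Units.val_pow_eq_pow_val, inv_pow, hζM, inv_one, Units.val_one])
  let u : Oˣ := ⟨⟨_, h1⟩, ⟨_, h2⟩, Subtype.ext (by simp), Subtype.ext (by simp)⟩
  have hu : Units.map (O.subtype : O →* ℂ) u = rootU (-1) M := Units.ext rfl
  have huM : u ^ M = 1 := by
    apply Units.map_injective (f := (O.subtype : O →* ℂ)) Subtype.val_injective
    rw [map_pow, hu, hζM, map_one]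
  refine ⟨Units.map (res : O →* κ) u, by rw [← map_pow, huM, map_one], fun s s' h => ?_⟩
  have e1 : IsExp M (fstO s') (scaleHom (rootU (-1) M) (coeffMap O.subtype (sndO s))) := by
    rw [h]
    exact TStab_isExp_T (isExp_symO s)
  have e2 := IsExp.unique (Nat.pos_of_ne_zero (NeZero.ne M)) (isExp_symO s') e1
  have e3 : ∀ n : ℤ, (sndO s').coeff n = ((u ^ n : Oˣ) : O) * (sndO s).coeff n := by
    intro n
    apply Subtype.ext
    have := congrArg (fun F => HahnSeries.coeff F n) e2
    simp only [coeffMap_coeff, scaleHom_coeff] at this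
    rw [← hu, ← map_zpow] at this
    exact this
  ext n
  show res ((sndO s').coeff n) = _
  rw [e3 n, map_mul, scaleHom_coeff, ← map_zpow]
  rfl

theorem minpoly_T (hO : Good M O) {κ : Type*} [Field κ] (res : O →+* κ) (s s' : symO M O)
    (h : fstO s' = actO ModularGroup.T (fstO s)) :
    minpoly (KJ κ M) (redO res s') = minpoly (KJ κ M) (redO res s) := by
  obtain ⟨c, hc, H⟩ := exists_scale hO res
  rw [H s s' h, minpoly_scaleHom c hc]

/-- **(T)**.
PROOF: `smul_x0_iff`, `exists_zpow_T_smul` reduce to `h = T ^ k`; `minpoly_T` with `(eqv_aX hO hM T z).symm` gives the case `T • z` for all `z`; induction on `k : ℤ`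
(`Int.induction_on`; `zpow_add_one`, `zpow_sub_one`, `mul_smul`; for `T⁻¹` apply the case `T` at `T⁻¹ • z`). -/
theorem hT_aX (hO : Good M O) (hM : 1 < M) {κ : Type*} [Field κ] (res : O →+* κ) (h : SL(2, ℤ))
    (hh : h • x0 M = x0 M) (z : Cosets1 M) :
    minpoly (KJ κ M) (redO res (aX hO hM (h • z))) = minpoly (KJ κ M) (redO res (aX hO hM z)) := by
  rw [x0, smul_x0_iff] at hh
  obtain ⟨k, hk⟩ := exists_zpow_T_smul M h hh
  rw [hk z]
  have hT : ∀ z : Cosets1 M, minpoly (KJ κ M) (redO res (aX hO hM (ModularGroup.T • z)))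
      = minpoly (KJ κ M) (redO res (aX hO hM z)) :=
    fun z => minpoly_T hO res _ _ (eqv_aX hO hM ModularGroup.T z).symm
  have key : ∀ (k : ℤ) (z : Cosets1 M),
      minpoly (KJ κ M) (redO res (aX hO hM ((ModularGroup.T ^ k) • z)))
        = minpoly (KJ κ M) (redO res (aX hO hM z)) := by
    intro k
    induction k using Int.induction_on with
    | zero => intro z; rw [zpow_zero, one_smul]
    | succ i ih =>
      intro z
      rw [zpow_add_one, mul_smul, ih, hT]
    | pred i ih =>
      intro z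
      rw [zpow_sub_one, mul_smul, ih]
      have h1 := hT (ModularGroup.T⁻¹ • z)
      rw [smul_inv_smul] at h1
      exact h1.symm
  exact key k z

end

end Fermat.Agent.G1.IG3
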