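import Fermat.Agent.G1.IG3.X0a
import Fermat.Agent.G1.IG3.Exp
import Fermat.Agent.G1.IG3.Group

/-!
# G1-IG3: the `X₀(M)` input (S28)
-/

set_option autoImplicit false

namespace Fermat.Agent.G1.IG3

open ModularCurve Polynomial UpperHalfPlane CongruenceSubgroup Fermat.Agent.S28 Fermat.Agent.G1.A
open scoped MatrixGroups Manifold

noncomputable section

variable {M : ℕ} [NeZero M] {O : Subring ℂ}

/-- **the `X₀(M)` input.**
PROOF: `w := W.map (mapRingHom res)` from `exists_prod_red res (aP hO) (eqv_aP hO)`; monic (its image is monic and `evP κ (JN κ M)` is injective: `evP_JN_injective`, `Polynomial.monic_of_injective`).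
`p₀ := piX M (x0 M) = mk 1` (`rfl`).  `Finset.mul_prod_erase` splits off `p₀`; `vs := (univ.erase p₀).val.map (fun p => redO res (aP hO p))`.
For `p = mk g ≠ mk 1`: `g⁻¹ ∉ Γ₀(M)` (`QuotientGroup.eq`), `aP_mk`, so `coeff_sndO_conj_vF`, `redO_conj_vF_ne_zero` give `hvs`.
`irreducible_of_roots (k := κ) (κ := κ) (JN κ M) (exists_coeff_ne_zero_of_pole _ (order_qExpand_jqModC_neg κ M)) w hw _ vs hvs hfac` : `Irreducible (w.map (algebraMap κ[X] (FractionRing κ[X])))`, and
`KJ κ M` IS `FractionRing κ[X]` (unfold).  Every `redO res (aP hO p)` is a root (`aeval_KJ`, `Finset.prod_eq_zero`), so `minpoly.eq_of_irreducible_of_monic` identifies all the minimal polynomials with `w.map _`.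
Second part: `not_mem_of_roots`. -/
theorem x0_input (hO : Good M O) {κ : Type*} [Field κ] (res : O →+* κ) :
    (∀ p, minpoly (KJ κ M) (redO res (aP hO p)) =
      minpoly (KJ κ M) (redO res (aP hO (piX M (x0 M))))) ∧
    ∀ p, p ≠ piX M (x0 M) → redO res (aP hO p) ≠ redO res (aP hO (piX M (x0 M))) := by
  classical
  obtain ⟨W, -, hW⟩ := exists_prod_red res (aP hO) (eqv_aP hO)
  set w := W.map (Polynomial.mapRingHom res) with hw_def
  have hwm : w.Monic := by
    apply Polynomial.monic_of_injective (evP_JN_injective κ M)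
    rw [hW]
    exact monic_prod_of_monic _ _ fun i _ => monic_X_sub_C _
  set p₀ : SL(2, ℤ) ⧸ Gamma0 M := piX M (x0 M) with hp₀
  have hp₀' : p₀ = ((1 : SL(2, ℤ)) : SL(2, ℤ) ⧸ Gamma0 M) := rfl
  set vs : Multiset (LaurentSeries κ) :=
    (Finset.univ.erase p₀).val.map (fun p => redO res (aP hO p)) with hvs_def
  have hfac : w.map (evP κ (JN κ M)) =
      (X - C (redO res (aP hO p₀))) * (vs.map fun v => X - C v).prod := by
    rw [hW, ← Finset.mul_prod_erase Finset.univ _ (Finset.mem_univ p₀)]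
    congr 1
    rw [hvs_def, Multiset.map_map]
    rfl
  have hvs : ∀ v ∈ vs, v ≠ 0 ∧ ∀ m : ℤ, m ≤ 0 → v.coeff m = 0 := by
    intro v hv
    obtain ⟨p, hp, rfl⟩ := Multiset.mem_map.1 hv
    have hp' : p ≠ p₀ := (Finset.mem_erase.1 hp).1
    induction p using QuotientGroup.induction_on with
    | H g =>
      have hg : g⁻¹ ∉ Gamma0 M := by
        intro h
        apply hp'
        rw [hp₀', QuotientGroup.eq]
        simpa using h
      rw [aP_mk]
      refine ⟨redO_conj_vF_ne_zero hO res _ hg, fun m hm => ?_⟩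
      show (coeffMap res (sndO _)).coeff m = 0
      rw [coeffMap_coeff, coeff_sndO_conj_vF hO _ hg m hm, map_zero]
  have hJ := exists_coeff_ne_zero_of_pole (k := κ) (JN κ M) (order_qExpand_jqModC_neg κ M)
  have hirr : Irreducible (w.map (algebraMap κ[X] (KJ κ M))) :=
    irreducible_of_roots (k := κ) (κ := κ) (JN κ M) hJ w hwm _ vs hvs hfac
  have hroot : ∀ p, aeval (redO res (aP hO p)) (w.map (algebraMap κ[X] (KJ κ M))) = 0 := by
    intro p
    rw [aeval_KJ, hW, eval_prod]
    exact Finset.prod_eq_zero (Finset.mem_univ p) (by simp)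
  have hmin : ∀ p, minpoly (KJ κ M) (redO res (aP hO p)) =
      w.map (algebraMap κ[X] (KJ κ M)) := fun p =>
    (minpoly.eq_of_irreducible_of_monic hirr (hroot p) (hwm.map _)).symm
  refine ⟨fun p => by rw [hmin, hmin], fun p hp h => ?_⟩
  apply not_mem_of_roots (k := κ) (JN κ M) hJ w _ vs hvs hfac
  rw [← h]
  exact Multiset.mem_map.2 ⟨p, Finset.mem_erase.2 ⟨hp, Finset.mem_univ _⟩, rfl⟩

end

end Fermat.Agent.G1.IG3
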