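import Fermat.Agent.G1.IG3.Simple
import Fermat.Agent.G1.IG3.X0
import Fermat.Agent.G1.IG3.TStab
import Fermat.Agent.G1.IG3.AbsC
import Fermat.Agent.G1.IG3.Irr

/-!
# G1-IG3: Igusa's theorem for `Γ₁(M)`: the reduced characteristic polynomial of `V1F M` is irreducible
-/

set_option autoImplicit false

namespace Fermat.Agent.G1.IG3

open ModularCurve Polynomial UpperHalfPlane CongruenceSubgroup Fermat.Agent.S28 Fermat.Agent.G1.A
open scoped MatrixGroups Manifold

noncomputable section

variable {M : ℕ} [NeZero M] {O : Subring ℂ}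

theorem piX_smul (γ : SL(2, ℤ)) (x : Cosets1 M) : piX M (γ • x) = γ • piX M x := by
  induction x using QuotientGroup.induction_on with
  | H g => rfl

/-- all the reduced conjugates of `V1F M` are conjugate over `κ(j)`. -/
theorem minpoly_aX (hO : Good M O) (hM : 1 < M) {κ : Type*} [Field κ] (res : O →+* κ)
    (x : Cosets1 M) :
    minpoly (KJ κ M) (redO res (aX hO hM x)) = minpoly (KJ κ M) (redO res (aX hO hM (x0 M))) := by
  classical
  refine minpoly_eq_of (inv_redO res) (aX hO hM) (eqv_aX hO hM) (x0 M) ?_ (hs_aX hO hM res)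
    (hT_aX hO hM res) (piX M) piX_smul (aP hO) (eqv_aP hO) (x0_input hO res).1 (x0_input hO res).2
    ?_ ?_ x
  · intro x
    induction x using QuotientGroup.induction_on with
    | H g => exact ⟨g, by show ((g * 1 : SL(2, ℤ)) : Cosets1 M) = _; rw [mul_one]⟩
  · intro b u hb hu
    exact (smul_x0_iff M _).mpr
      (conj_mem_Gpm M b u ((smul_p0_iff M b).mp hb) ((smul_x0_iff M u).mp hu))
  · intro D hD
    exact eq_top_of_conj_T D fun g => hD g _ ((smul_x0_iff M _).mpr (T_mem_Gpm M))

/-- **Igusa for `Γ₁(M)`**. -/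
theorem irreducible_Wbar (hO : Good M O) (hM : 1 < M) {κ : Type*} [Field κ] (res : O →+* κ)
    (w : κ[X][X])
    (hw : w.map (evP κ (JN κ M)) = ∏ x, (X - C (redO res (aX hO hM x)))) :
    Irreducible (w.map (algebraMap κ[X] (FractionRing κ[X]))) := by
  classical
  have h : Irreducible (w.map (algebraMap κ[X] (KJ κ M))) :=
    irreducible_of_minpoly_eq (fun x => redO res (aX hO hM x)) _
      (by rw [map_map_KJ, hw]) (x0 M) (hs_aX hO hM res) (minpoly_aX hO hM res)
  exact h

end

end Fermat.Agent.G1.IG3
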