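import Fermat.Agent.G1.IG3.AbsDefs
import Fermat.Agent.S28.Analytic
import Fermat.Agent.S28.Descent

/-!
# G1-IG3: the concrete ring of (holomorphic function, expansion with coefficients in `O`)
-/

set_option autoImplicit false

namespace Fermat.Agent.G1.IG3

open ModularCurve Polynomial UpperHalfPlane Fermat.Agent.S28
open scoped MatrixGroups Manifold

noncomputable section

/-- pairs (holomorphic function on `ℍ`, its expansion in `t = q^{1/N}`, with coefficients in `O`). -/
def symO (N : ℕ) (O : Subring ℂ) : Subring ((ℍ → ℂ) × LaurentSeries O) where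
  carrier := {p | IsExp N p.1 (coeffMap O.subtype p.2) ∧ MDiff p.1}
  mul_mem' := fun {a b} ha hb => ⟨by
    show IsExp N (a.1 * b.1) (coeffMap O.subtype (a.2 * b.2))
    rw [map_mul]; exact IsExp.mul ha.1 hb.1, ha.2.mul hb.2⟩
  one_mem' := ⟨by
    show IsExp N 1 (coeffMap O.subtype 1)
    rw [map_one]; exact isExp_one N, mdifferentiable_const⟩
  add_mem' := fun {a b} ha hb => ⟨by
    show IsExp N (a.1 + b.1) (coeffMap O.subtype (a.2 + b.2))
    rw [map_add]; exact IsExp.add ha.1 hb.1, ha.2.add hb.2⟩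
  zero_mem' := ⟨by
    show IsExp N 0 (coeffMap O.subtype 0)
    rw [map_zero]; exact isExp_zero N, mdifferentiable_const⟩
  neg_mem' := fun {a} ha => ⟨by
    show IsExp N (-a.1) (coeffMap O.subtype (-a.2))
    rw [map_neg]; exact IsExp.neg ha.1, ha.2.neg⟩

variable {N : ℕ} {O : Subring ℂ}

/-- the function. -/
def fstO : symO N O →+* (ℍ → ℂ) := (RingHom.fst (ℍ → ℂ) (LaurentSeries O)).comp (symO N O).subtype

/-- the expansion. -/
def sndO : symO N O →+* LaurentSeries O :=
  (RingHom.snd (ℍ → ℂ) (LaurentSeries O)).comp (symO N O).subtype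

theorem isExp_symO (s : symO N O) : IsExp N (fstO s) (coeffMap O.subtype (sndO s)) := s.2.1

theorem mdiff_symO (s : symO N O) : MDiff (fstO s) := s.2.2

/-- the LEFT action of `SL₂(ℤ)` on functions: `(γ · h)(τ) = h(γ⁻¹ τ)`. -/
def actO (γ : SL(2, ℤ)) : (ℍ → ℂ) →+* (ℍ → ℂ) := symAct γ⁻¹

@[simp] theorem actO_apply (γ : SL(2, ℤ)) (h : ℍ → ℂ) (τ : ℍ) : actO γ h τ = h (γ⁻¹ • τ) := rfl

/-- the reduced expansion. -/
def redO {κ : Type*} [Field κ] (res : O →+* κ) : symO N O →+* LaurentSeries κ :=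
  (coeffMap res).comp sndO

/-- the field `κ(j)`, as an abstract fraction field, tagged with the level `N`
(it acts on `κ((t))` through `j ↦ j(t^N)`). -/
def KJ (κ : Type*) [Field κ] (_N : ℕ) : Type _ := FractionRing κ[X]

instance (κ : Type*) [Field κ] (N : ℕ) : Field (KJ κ N) := inferInstanceAs (Field (FractionRing κ[X]))

instance (κ : Type*) [Field κ] (N : ℕ) : Algebra κ[X] (KJ κ N) :=
  inferInstanceAs (Algebra κ[X] (FractionRing κ[X]))

instance (κ : Type*) [Field κ] (N : ℕ) : IsFractionRing κ[X] (KJ κ N) :=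
  inferInstanceAs (IsFractionRing κ[X] (FractionRing κ[X]))

theorem evP_JN_injective (κ : Type*) [Field κ] (N : ℕ) [NeZero N] :
    Function.Injective (evP κ (JN κ N)) :=
  evP_injective_of_pole _ (order_qExpand_jqModC_neg κ N)

instance (κ : Type*) [Field κ] (N : ℕ) [NeZero N] : Algebra (KJ κ N) (LaurentSeries κ) :=
  (IsFractionRing.lift (K := KJ κ N) (evP_JN_injective κ N)).toAlgebra

theorem algebraMap_KJ (κ : Type*) [Field κ] (N : ℕ) [NeZero N] (p : κ[X]) :
    algebraMap (KJ κ N) (LaurentSeries κ) (algebraMap κ[X] (KJ κ N) p) = evP κ (JN κ N) p :=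
  IsFractionRing.lift_algebraMap (evP_JN_injective κ N) p

end

end Fermat.Agent.G1.IG3
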