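import Fermat.Agent.G1.IG3.SimpleC

/-!
# G1-IG3: (S) the reduced expansion of `V1F M` at `∞` differs from those of all the other conjugates
-/

set_option autoImplicit false

namespace Fermat.Agent.G1.IG3

open ModularCurve Polynomial UpperHalfPlane CongruenceSubgroup Fermat.Agent.S28 Fermat.Agent.G1.A
open scoped MatrixGroups Manifold

noncomputable section

variable {M : ℕ} [NeZero M] {O : Subring ℂ}

/-- **(S)**. -/
theorem hs_aX (hO : Good M O) (hM : 1 < M) {κ : Type*} [Field κ] (res : O →+* κ) (x : Cosets1 M)
    (hx : x ≠ x0 M) : redO res (aX hO hM x) ≠ redO res (aX hO hM (x0 M)) := by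
  induction x using QuotientGroup.induction_on with
  | H g =>
    have hg' : g⁻¹ ∉ Gpm M := by
      intro h
      apply hx
      have h2 : g ∈ Gpm M := by simpa using inv_mem h
      exact (QuotientGroup.eq.mpr (by simpa using h)).trans rfl
    by_cases hg : g⁻¹ ∈ Gamma0 M
    · exact hs_aX_of_mem hO hM res g hg hg'
    · exact hs_aX_of_not_mem hO hM res g hg

end

end Fermat.Agent.G1.IG3
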