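import Fermat.Agent.G1.IG3.Exp
import Fermat.Agent.G1.IG3.Group

/-!
# G1-IG3: (S), the case `γ ∈ Γ₀(M)`
-/

set_option autoImplicit false

namespace Fermat.Agent.G1.IG3

open ModularCurve Polynomial UpperHalfPlane CongruenceSubgroup Fermat.Agent.S28 Fermat.Agent.G1.A
open scoped MatrixGroups Manifold

noncomputable section

variable {M : ℕ} [NeZero M] {O : Subring ℂ}

/-- PROOF: `aX_mk` at `g = 1` (`x0 M = mk 1` by `rfl`, `inv_one`), `sndO_conj_vF_of_mem` and `sndO_conj_genF_of_mem` at `γ = 1` (`one_mem`; `(1 : SL(2,ℤ)) 0 0 = 1`, `Int.cast_one`);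
`iotaN O M (uB ℤ M 1 1) = qExpand O M (uB O M 1 1)` by `coeffMap_uB`; `map_add`, `map_pow`. -/
theorem sndO_aX_x0 (hO : Good M O) (hM : 1 < M) : sndO (aX hO hM (x0 M)) = iotaN O M (VZ1 M) := by
  have h := aX_mk hO hM (1 : SL(2, ℤ))
  rw [inv_one] at h
  rw [show x0 M = ((1 : SL(2, ℤ)) : Cosets1 M) from rfl, h, map_add, map_pow,
    sndO_conj_vF_of_mem hO 1 (one_mem _), sndO_conj_genF_of_mem hO hM 1 (one_mem _)]
  have h1 : (((1 : SL(2, ℤ)) 0 0 : ℤ) : ZMod M) = 1 := by simp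
  rw [h1, VZ1, map_add, map_pow]
  congr 1
  show _ = qExpand O M (coeffMap (Int.castRingHom O) (uB ℤ M 1 1))
  rw [coeffMap_uB]

theorem redO_aX_x0 (hO : Good M O) (hM : 1 < M) {κ : Type*} [Field κ] (res : O →+* κ) :
    redO res (aX hO hM (x0 M)) = iotaN κ M (VZ1 M) := by
  show coeffMap res (sndO (aX hO hM (x0 M))) = _
  rw [sndO_aX_x0, coeffMap_iotaN]

theorem SimpleA_invDelta_ne_zero (κ : Type*) [Field κ] : invDelta κ ≠ 0 := by
  unfold invDelta
  refine mul_ne_zero (by simp) ?_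
  intro h
  have h1 : (dedekindEtaUnitInv.map (Int.castRingHom κ)) = 0 :=
    HahnSeries.ofPowerSeries_injective (by rw [h, map_zero])
  have h2 := congrArg PowerSeries.constantCoeff h1
  rw [← PowerSeries.coeff_zero_eq_constantCoeff_apply, PowerSeries.coeff_map,
    PowerSeries.coeff_zero_eq_constantCoeff_apply, constantCoeff_dedekindEtaUnitInv] at h2
  simp at h2

theorem SimpleA_coeff_eBL_one (κ : Type*) [Field κ] (b : ZMod M) :
    (eBL κ M b).coeff 1 =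
      (((if (1 : ZMod M) = b then (1 : ℤ) else 0) + (if (1 : ZMod M) = -b then 1 else 0) : ℤ) : κ) := by
  have h : (eBL κ M b).coeff ((1 : ℕ) : ℤ) =
      PowerSeries.coeff 1 ((eB M b).map (Int.castRingHom κ)) := by
    rw [eBL, HahnSeries.ofPowerSeries_apply_coeff]
  rw [Nat.cast_one] at h
  rw [h, PowerSeries.coeff_map, coeff_eB, Nat.divisors_one, Finset.sum_singleton]
  simp

/-- `e_a ≠ e_1` modulo `ℓ` for `a ≠ ±1`: the coefficient of `q` in `eB M b` is `[b = 1] + [b = -1]` (`coeff_eB`, `Nat.divisors_one`); for `b = 1` it is `1` (there is `a ≠ ±1`, so `(1 : ZMod M) ≠ -1`... if `1 = -1` it is `2`: but then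
use that `a ≠ 1`, `a ≠ -1` are the same condition and `M = 2` (or `1`) has no such unit; SIMPLER: it is `1 + [1 = -1] ∈ {1, 2}`; if `(1 : ZMod M) = -1` then `M ∣ 2`, every `a : ZMod M` which is the class of an integer prime to `M`…
TO AVOID THIS: the hypothesis `h2 : (1 : ZMod M) ≠ -1` is given).  `uB κ M 1 b = eBL κ M b * qExpand κ 1 (invDelta κ)` and the second factor is `≠ 0` (field): cancel. -/
theorem uB_ne {κ : Type*} [Field κ] (a : ZMod M) (h1 : a ≠ 1) (h1' : a ≠ -1) (h2 : (1 : ZMod M) ≠ -1) :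
    uB κ M 1 a ≠ uB κ M 1 1 := by
  intro h
  unfold uB at h
  have h0 : qExpand κ 1 (invDelta κ) ≠ 0 := by
    intro h0
    exact SimpleA_invDelta_ne_zero κ (qExpand_injective (R := κ) 1 (by rw [h0, map_zero]))
  have h3 := mul_right_cancel₀ h0 h
  have h4 := congrArg (fun f : LaurentSeries κ => f.coeff 1) h3
  simp only [SimpleA_coeff_eBL_one] at h4
  rw [if_neg (Ne.symm h1), if_neg (fun e => h1' (by rw [e, neg_neg])), if_pos trivial,
    if_neg h2] at h4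
  simp at h4

/-- case `γ ∈ Γ₀(M) \ ±Γ₁(M)`.
PROOF: `aX_mk`; `sndO_conj_vF_of_mem` for `g⁻¹` and for `1`: the `vF`-parts agree; `sndO_conj_genF_of_mem`: the other parts are `qExpand κ M (uB κ M 1 a)`, `a = (g⁻¹ 0 0 : ZMod M)`, resp. `a = 1`
(`coeffMap_qExpand`, `coeffMap_uB`); `entry_ne_of_not_mem_Gpm`; `qExpand_injective`; `uB_ne` (`h2`: if `(1 : ZMod M) = -1` then `a ≠ 1`, `a * d = 1` in `ZMod M` with `M ∣ 2`: `M = 2` (as `1 < M`), `ZMod 2 = {0, 1}`, `a = 0` contradicts `a * d = 1`;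
`d = g⁻¹ 1 1`, determinant `= 1`, lower left entry `≡ 0`). -/
theorem hs_aX_of_mem (hO : Good M O) (hM : 1 < M) {κ : Type*} [Field κ] (res : O →+* κ)
    (g : SL(2, ℤ)) (hg : g⁻¹ ∈ Gamma0 M) (hg' : g⁻¹ ∉ Gpm M) :
    redO res (aX hO hM (g : Cosets1 M)) ≠ redO res (aX hO hM (x0 M)) := by
  intro h
  rw [redO_aX_x0] at h
  have h1 : redO res (aX hO hM (g : Cosets1 M)) =
      iotaN κ M (VZ M) ^ 2 + qExpand κ M (uB κ M 1 (((g⁻¹ : SL(2, ℤ)) 0 0 : ℤ) : ZMod M)) := by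
    show coeffMap res (sndO (aX hO hM (g : Cosets1 M))) = _
    rw [aX_mk, map_add, map_pow, sndO_conj_vF_of_mem hO g⁻¹ hg, sndO_conj_genF_of_mem hO hM g⁻¹ hg,
      map_add, map_pow, coeffMap_iotaN, coeffMap_qExpand, coeffMap_uB]
  have h2 : iotaN κ M (VZ1 M) = iotaN κ M (VZ M) ^ 2 + qExpand κ M (uB κ M 1 1) := by
    rw [VZ1, map_add, map_pow]
    congr 1
    show qExpand κ M (coeffMap (Int.castRingHom κ) (uB ℤ M 1 1)) = _
    rw [coeffMap_uB]
  rw [h1, h2] at h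
  have h3 := qExpand_injective (R := κ) M (add_left_cancel h)
  obtain ⟨ha, ha'⟩ := entry_ne_of_not_mem_Gpm M g⁻¹ hg hg'
  refine uB_ne _ ha ha' ?_ h3
  intro h11
  have h20 : ((2 : ℕ) : ZMod M) = 0 := by
    have : (1 : ZMod M) + 1 = 0 := by nth_rewrite 1 [h11]; simp
    push_cast
    rw [← this]; norm_num
  have hdvd : M ∣ 2 := (ZMod.natCast_eq_zero_iff 2 M).1 h20
  have hM2 : M = 2 := le_antisymm (Nat.le_of_dvd two_pos hdvd) hM
  have hnd := Exp_not_dvd_of_mem_Gamma0 hM g⁻¹ hg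
  apply ha
  have h5 : (M : ℤ) ∣ (g⁻¹ : SL(2, ℤ)) 0 0 - 1 := by
    rw [hM2] at hnd ⊢
    push_cast at hnd ⊢
    omega
  have h6 := (ZMod.intCast_zmod_eq_zero_iff_dvd _ M).2 h5
  push_cast at h6
  exact sub_eq_zero.1 h6

end

end Fermat.Agent.G1.IG3
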