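import Fermat.Agent.G1.IG3.X0b

/-!
# G1-IG3: (S), the pole at `∞`
-/

set_option autoImplicit false

namespace Fermat.Agent.G1.IG3

open ModularCurve Polynomial UpperHalfPlane CongruenceSubgroup Fermat.Agent.S28 Fermat.Agent.G1.A
open scoped MatrixGroups Manifold

noncomputable section

variable {M : ℕ} [NeZero M] {O : Subring ℂ}

/-- the coefficients of `e_b / Δ` vanish below `-1`. -/
theorem SimpleB_coeff_uB (κ : Type*) [Field κ] (M : ℕ) (b : ZMod M) (k : ℤ) (hk : k < -1) :
    (uB κ M 1 b).coeff k = 0 := by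
  have h1 : uB κ M 1 b = HahnSeries.single (-1 : ℤ) (1 : κ) *
      HahnSeries.ofPowerSeries ℤ κ ((eB M b).map (Int.castRingHom κ) *
        dedekindEtaUnitInv.map (Int.castRingHom κ)) := by
    rw [uB, qExpand_one_apply, eBL, invDelta, map_mul]
    ring
  have h2 : k = (k + 1) + (-1) := by ring
  rw [h1, h2, HahnSeries.coeff_single_mul_add, one_mul]
  have h3 := PowerSeries.coeff_coe (R := κ) (i := k + 1) ((eB M b).map (Int.castRingHom κ) *
        dedekindEtaUnitInv.map (Int.castRingHom κ))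
  rw [if_pos (by omega)] at h3
  exact h3

/-- the expansion at `∞` has a pole of order `> M` in `t`.
PROOF: `iotaN κ M (VZ1 M) = iotaN κ M (VZ M) ^ 2 + qExpand κ M (uB κ M 1 1)`.  `o := (iotaN κ M (VZ M)).order < 0` (`order_iotaN_VZ_neg`) and `M ∣ o` (the coefficients of `qExpand κ M f` vanish outside multiples of `M`;
or `order_qExpand`), so `o ≤ -M`, and the square has order `2 o ≤ -2 M` (`HahnSeries.order_mul`/`order_pow`), with nonzero coefficient at `m := 2 o` (`HahnSeries.coeff_order_ne_zero`).  The coefficients of `qExpand κ M (uB κ M 1 1)` vanish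
below `-M` (`uB = eBL * qExpand 1 invDelta`: power series times `q⁻¹ ·` power series). -/
theorem exists_coeff_iotaN_VZ1 (hO : Good M O) (hM : 1 < M) {κ : Type*} [Field κ] (res : O →+* κ) :
    ∃ m : ℤ, m < -(M : ℤ) ∧ (iotaN κ M (VZ1 M)).coeff m ≠ 0 := by
  have h2 : iotaN κ M (VZ1 M) = iotaN κ M (VZ M) ^ 2 + qExpand κ M (uB κ M 1 1) := by
    rw [VZ1, map_add, map_pow]
    congr 1
    show qExpand κ M (coeffMap (Int.castRingHom κ) (uB ℤ M 1 1)) = _
    rw [coeffMap_uB]
  have ho := order_iotaN_VZ_neg hO hM res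
  set V := iotaN κ M (VZ M) with hV
  have hV0 : V ≠ 0 := by
    intro h
    rw [h, HahnSeries.order_zero] at ho
    exact lt_irrefl _ ho
  have hc : V.coeff V.order ≠ 0 := fun h => hV0 (HahnSeries.coeff_order_eq_zero.mp h)
  have hdvd : (M : ℤ) ∣ V.order := by
    by_contra hnd
    exact hc (qExpand_coeff_of_not_dvd M _ hnd)
  obtain ⟨o', ho'⟩ := hdvd
  have hMpos : (0 : ℤ) < M := by exact_mod_cast (Nat.pos_of_ne_zero (NeZero.ne M))
  have ho'neg : o' < 0 := by
    by_contra hcon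
    push Not at hcon
    have : 0 ≤ (M : ℤ) * o' := mul_nonneg hMpos.le hcon
    omega
  have hsq0 : V ^ 2 ≠ 0 := pow_ne_zero 2 hV0
  have hord : (V ^ 2).order = (M : ℤ) * (2 * o') := by
    rw [sq, HahnSeries.order_mul hV0 hV0, ho']
    ring
  have hc2 : (V ^ 2).coeff ((M : ℤ) * (2 * o')) ≠ 0 := by
    rw [← hord]
    exact fun h => hsq0 (HahnSeries.coeff_order_eq_zero.mp h)
  refine ⟨(M : ℤ) * (2 * o'), ?_, ?_⟩
  · nlinarith
  · rw [h2, HahnSeries.coeff_add, qExpand_coeff_mul, SimpleB_coeff_uB κ M 1 _ (by omega), add_zero]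
    exact hc2

end

end Fermat.Agent.G1.IG3
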