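import Fermat.Agent.G1.IG3.SimpleA
import Fermat.Agent.G1.IG3.SimpleB

/-!
# G1-IG3: (S), the case `γ ∉ Γ₀(M)`
-/

set_option autoImplicit false

namespace Fermat.Agent.G1.IG3

open ModularCurve Polynomial UpperHalfPlane CongruenceSubgroup Fermat.Agent.S28 Fermat.Agent.G1.A
open scoped MatrixGroups Manifold

noncomputable section

variable {M : ℕ} [NeZero M] {O : Subring ℂ}

/-- the square of a series whose coefficients vanish at `m ≤ 0` has the same property. -/
theorem SimpleC_coeff_sq {κ : Type*} [Field κ] (x : LaurentSeries κ)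
    (hx : ∀ m : ℤ, m ≤ 0 → x.coeff m = 0) (m : ℤ) (hm : m ≤ 0) : (x ^ 2).coeff m = 0 := by
  by_cases hx0 : x = 0
  · rw [hx0]
    simp
  have hpos : 0 < x.order := by
    by_contra h
    exact hx0 (HahnSeries.coeff_order_eq_zero.mp (hx _ (not_lt.mp h)))
  apply HahnSeries.coeff_eq_zero_of_lt_order
  rw [pow_two, HahnSeries.order_mul hx0 hx0]
  omega

/-- case `γ ∉ Γ₀(M)`.
PROOF: `aX_mk`; all coefficients of `redO res (aX … (mk g))` at `m < -M` vanish: the square of a series with coefficients vanishing at `m ≤ 0` (`coeff_sndO_conj_vF`, then `coeffMap_coeff`) has the same property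
(`HahnSeries.coeff_mul`/orders), and `coeff_sndO_conj_genF`.  Compare with `exists_coeff_iotaN_VZ1` and `redO_aX_x0`. -/
theorem hs_aX_of_not_mem (hO : Good M O) (hM : 1 < M) {κ : Type*} [Field κ] (res : O →+* κ)
    (g : SL(2, ℤ)) (hg : g⁻¹ ∉ Gamma0 M) :
    redO res (aX hO hM (g : Cosets1 M)) ≠ redO res (aX hO hM (x0 M)) := by
  intro h
  rw [redO_aX_x0] at h
  obtain ⟨m, hm, hne⟩ := exists_coeff_iotaN_VZ1 hO hM res
  apply hne
  rw [← h]
  have h1 : redO res (aX hO hM (g : Cosets1 M)) =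
      coeffMap res (sndO (conj (vF M) (hasExpO_vF hO) g⁻¹)) ^ 2 +
        coeffMap res (sndO (conj (genF M 1 1)
          (hasExpO_genF hO 1 (not_dvd_one hM) 1 (one_dvd M)) g⁻¹)) := by
    show coeffMap res (sndO (aX hO hM (g : Cosets1 M))) = _
    rw [aX_mk, map_add, map_pow, map_add, map_pow]
  have hM0 : (0 : ℤ) ≤ (M : ℤ) := Int.natCast_nonneg M
  rw [h1, HahnSeries.coeff_add, SimpleC_coeff_sq _ (fun k hk => by
    rw [coeffMap_coeff, coeff_sndO_conj_vF hO g⁻¹ hg k hk, map_zero]) m (by omega),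
    coeffMap_coeff, coeff_sndO_conj_genF hO hM g⁻¹ m hm, map_zero, add_zero]

end

end Fermat.Agent.G1.IG3
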