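import Fermat.Agent.G1.IG3.Conc
import Fermat.Agent.G1.IG3.InvO
import Fermat.Agent.G1.IG3.AbsA

/-!
# G1-IG3: tools: reduced characteristic polynomials, evaluation over `KJ`
-/

set_option autoImplicit false

namespace Fermat.Agent.G1.IG3

open ModularCurve Polynomial UpperHalfPlane CongruenceSubgroup Fermat.Agent.S28 Fermat.Agent.G1.A
open scoped MatrixGroups Manifold

noncomputable section

variable {M : ℕ} [NeZero M] {O : Subring ℂ}

/-- the reduced characteristic polynomial of an equivariant family.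
PROOF: `exists_prod inv_sndO α hα` gives `W : O[X][X]` with `W.map (evP O (JN O M)) = ∏ (X - C (sndO (α i)))`; apply `Polynomial.map (coeffMap res)`:
`map_map_evP res (coeffMap res) (coeffMap_algebraMap' res res fun _ => rfl)`, `coeffMap_JN`, `Polynomial.map_prod` (compare `hfacκ` in `GR/D/Vert/Model.lean`); `redO res s = coeffMap res (sndO s)` is `rfl`. -/
theorem exists_prod_red {κ : Type*} [Field κ] (res : O →+* κ) {I : Type*} [Fintype I]
    [MulAction SL(2, ℤ) I] (α : I → symO M O) (hα : Eqv actO fstO α) :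
    ∃ W : O[X][X], W.map (evP O (JN O M)) = ∏ i, (X - C (sndO (α i))) ∧
      (W.map (Polynomial.mapRingHom res)).map (evP κ (JN κ M)) = ∏ i, (X - C (redO res (α i))) := by
  obtain ⟨W, hW⟩ := exists_prod inv_sndO α hα
  refine ⟨W, hW, ?_⟩
  have h1 := congrArg (Polynomial.map (coeffMap res)) hW
  rw [map_map_evP res (coeffMap res) (coeffMap_algebraMap' res res fun _ => rfl),
    coeffMap_JN] at h1
  rw [h1]
  simp only [Polynomial.map_prod, Polynomial.map_sub, Polynomial.map_X, Polynomial.map_C]
  rfl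

/-- evaluation over `KJ`: for `w : κ[X][X]` and `y : κ((t))`:
`aeval y (w.map (algebraMap κ[X] (KJ κ M))) = (w.map (evP κ (JN κ M))).eval y` (`aeval_def`, `eval₂_map`, `eval_map`; the two ring homs `κ[X] → κ((t))` agree by `algebraMap_KJ`). -/
theorem aeval_KJ {κ : Type*} [Field κ] (w : κ[X][X]) (y : LaurentSeries κ) :
    aeval y (w.map (algebraMap κ[X] (KJ κ M))) = (w.map (evP κ (JN κ M))).eval y := by
  have hc : (algebraMap (KJ κ M) (LaurentSeries κ)).comp (algebraMap κ[X] (KJ κ M)) =
      evP κ (JN κ M) := RingHom.ext fun p => algebraMap_KJ κ M p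
  rw [aeval_def, eval₂_map, hc, eval_map]

/-- same for `Polynomial.map`. -/
theorem map_map_KJ {κ : Type*} [Field κ] (w : κ[X][X]) :
    (w.map (algebraMap κ[X] (KJ κ M))).map (algebraMap (KJ κ M) (LaurentSeries κ)) =
      w.map (evP κ (JN κ M)) := by
  have hc : (algebraMap (KJ κ M) (LaurentSeries κ)).comp (algebraMap κ[X] (KJ κ M)) =
      evP κ (JN κ M) := RingHom.ext fun p => algebraMap_KJ κ M p
  rw [Polynomial.map_map, hc]

end

end Fermat.Agent.G1.IG3
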