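import Fermat.Agent.G1.IG3.X0a
import Fermat.Agent.G1.IG3.Exp
import Fermat.Agent.G1.IG3.Group

/-!
# G1-IG3: the unit `vF M` has a pole at `∞` modulo `ℓ`
-/

set_option autoImplicit false

namespace Fermat.Agent.G1.IG3

open ModularCurve Polynomial UpperHalfPlane CongruenceSubgroup Fermat.Agent.S28 Fermat.Agent.G1.A
open scoped MatrixGroups Manifold

noncomputable section

variable {M : ℕ} [NeZero M] {O : Subring ℂ}

theorem X0b_order_pos {κ : Type*} [Field κ] {x : LaurentSeries κ} (hx0 : x ≠ 0)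
    (hx : ∀ m : ℤ, m ≤ 0 → x.coeff m = 0) : 0 < x.order := by
  by_contra h
  exact hx0 (HahnSeries.coeff_order_eq_zero.mp (hx _ (not_lt.mp h)))

/-- the order of a finite product of series of positive order is at least the number of factors. -/
theorem X0b_card_le_order_prod {κ : Type*} [Field κ] {I : Type*} (s : Finset I)
    (f : I → LaurentSeries κ) (h0 : ∀ i ∈ s, f i ≠ 0) (hpos : ∀ i ∈ s, 0 < (f i).order) :
    (s.card : ℤ) ≤ (∏ i ∈ s, f i).order := by
  classical
  induction s using Finset.induction_on with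
  | empty => simp
  | insert a s ha ih =>
    rw [Finset.prod_insert ha, HahnSeries.order_mul (h0 a (Finset.mem_insert_self a s))
      (Finset.prod_ne_zero_iff.mpr fun c hc => h0 c (Finset.mem_insert_of_mem hc)),
      Finset.card_insert_of_notMem ha]
    have h1 := hpos a (Finset.mem_insert_self a s)
    have h2 := ih (fun i hi => h0 i (Finset.mem_insert_of_mem hi))
      (fun i hi => hpos i (Finset.mem_insert_of_mem hi))
    push_cast
    omega

theorem X0b_iotaN_VZ_ne_zero {κ : Type*} [Field κ] : iotaN κ M (VZ M) ≠ 0 := by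
  have hu : IsUnit (VZ M) := by
    unfold VZ
    exact Units.isUnit _
  exact (hu.map (iotaN κ M)).ne_zero

theorem X0b_redO_aP_one (hO : Good M O) {κ : Type*} [Field κ] (res : O →+* κ) :
    redO res (aP hO ((1 : SL(2, ℤ)) : SL(2, ℤ) ⧸ Gamma0 M)) = iotaN κ M (VZ M) := by
  rw [aP_mk]
  show coeffMap res (sndO (conj (vF M) (hasExpO_vF hO) (1 : SL(2, ℤ))⁻¹)) = _
  rw [sndO_conj_vF_of_mem hO _ ((Gamma0 M).inv_mem (Gamma0 M).one_mem), coeffMap_iotaN]

theorem X0b_redO_aP_ne (hO : Good M O) {κ : Type*} [Field κ] (res : O →+* κ)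
    (p : SL(2, ℤ) ⧸ Gamma0 M) (hp : p ≠ ((1 : SL(2, ℤ)) : SL(2, ℤ) ⧸ Gamma0 M)) :
    redO res (aP hO p) ≠ 0 ∧ 0 < (redO res (aP hO p)).order := by
  obtain ⟨g, rfl⟩ := QuotientGroup.mk_surjective p
  have hg : g⁻¹ ∉ Gamma0 M := by
    intro h
    apply hp
    rw [QuotientGroup.eq]
    simpa using h
  rw [aP_mk]
  have h0 := redO_conj_vF_ne_zero hO res g⁻¹ hg
  refine ⟨h0, X0b_order_pos h0 fun m hm => ?_⟩
  show (coeffMap res (sndO (conj (vF M) (hasExpO_vF hO) g⁻¹))).coeff m = 0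
  rw [coeffMap_coeff, coeff_sndO_conj_vF hO g⁻¹ hg m hm, map_zero]

/-- the unit has a pole at `∞` modulo `ℓ`.
PROOF: with `w`, `vs` as above: the constant coefficient: `evP κ (JN κ M) (w.coeff 0) = ∏ p, (- redO res (aP hO p))` (evaluate the factorisation at `0`); it is `≠ 0` (all factors are `≠ 0`: `iotaN κ M (VZ M)` is the image of a unit
of `ℤ((q))`; the others by `redO_conj_vF_ne_zero`), so `w.coeff 0 ≠ 0` and by `exists_coeff_ne_zero_of_pole` its order is `≤ 0`.  There is at least one `p ≠ p₀` (`mk S`, `S_not_mem_Gamma0 M hM`), all `p ≠ p₀` have order `≥ 1`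
(`coeff_sndO_conj_vF`; `HahnSeries.order_mul`, orders of finite products by induction).  Hence `order (iotaN κ M (VZ M)) ≤ -1`.  (`redO res (aP hO (mk 1)) = iotaN κ M (VZ M)`: `aP_mk`, `sndO_conj_vF_of_mem`, `coeffMap_iotaN`.)
ALTERNATIVE: compute the order of the product `VZ M` directly. -/
theorem order_iotaN_VZ_neg (hO : Good M O) (hM : 1 < M) {κ : Type*} [Field κ] (res : O →+* κ) :
    (iotaN κ M (VZ M)).order < 0 := by
  classical
  obtain ⟨W, -, hW⟩ := exists_prod_red res (aP hO) (eqv_aP hO)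
  set w : κ[X][X] := W.map (Polynomial.mapRingHom res) with hw
  set p₀ : SL(2, ℤ) ⧸ Gamma0 M := ((1 : SL(2, ℤ)) : SL(2, ℤ) ⧸ Gamma0 M) with hp₀
  set a : SL(2, ℤ) ⧸ Gamma0 M → LaurentSeries κ := fun p => redO res (aP hO p) with ha
  have ha0 : a p₀ = iotaN κ M (VZ M) := X0b_redO_aP_one hO res
  have hane : ∀ p, a p ≠ 0 := by
    intro p
    by_cases hp : p = p₀
    · rw [hp, ha0]
      exact X0b_iotaN_VZ_ne_zero
    · exact (X0b_redO_aP_ne hO res p hp).1
  -- the constant coefficient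
  have hc : evP κ (JN κ M) (w.coeff 0) = ∏ p, (- a p) := by
    have h1 := congrArg (Polynomial.eval 0) hW
    rw [Polynomial.eval_prod, ← Polynomial.coeff_zero_eq_eval_zero, Polynomial.coeff_map] at h1
    rw [h1]
    refine Finset.prod_congr rfl fun p _ => ?_
    simp [ha]
  have hprod0 : (∏ p, (- a p)) ≠ 0 :=
    Finset.prod_ne_zero_iff.mpr fun p _ => neg_ne_zero.mpr (hane p)
  have hw0 : w.coeff 0 ≠ 0 := by
    intro h
    rw [h, map_zero] at hc
    exact hprod0 hc.symm
  obtain ⟨m, hm0, hm⟩ := exists_coeff_ne_zero_of_pole (k := κ) (JN κ M)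
    (order_qExpand_jqModC_neg κ M) (w.coeff 0) hw0
  have hord : (∏ p, (- a p)).order ≤ 0 := by
    rw [← hc]
    exact (HahnSeries.order_le_of_coeff_ne_zero hm).trans hm0
  -- split off `p₀`
  rw [← Finset.mul_prod_erase Finset.univ (fun p => - a p) (Finset.mem_univ p₀),
    HahnSeries.order_mul (neg_ne_zero.mpr (hane p₀))
      (Finset.prod_ne_zero_iff.mpr fun p _ => neg_ne_zero.mpr (hane p)),
    HahnSeries.order_neg, ha0] at hord
  have hcard : (((Finset.univ.erase p₀).card : ℕ) : ℤ) ≤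
      (∏ p ∈ Finset.univ.erase p₀, (- a p)).order := by
    refine X0b_card_le_order_prod _ _ (fun p _ => neg_ne_zero.mpr (hane p)) fun p hp => ?_
    rw [HahnSeries.order_neg]
    exact (X0b_redO_aP_ne hO res p (Finset.ne_of_mem_erase hp)).2
  have hS : ((ModularGroup.S : SL(2, ℤ)) : SL(2, ℤ) ⧸ Gamma0 M) ∈ Finset.univ.erase p₀ := by
    refine Finset.mem_erase.mpr ⟨fun h => ?_, Finset.mem_univ _⟩
    rw [hp₀, QuotientGroup.eq] at h
    apply S_not_mem_Gamma0 M hM
    have h2 := (Gamma0 M).inv_mem h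
    simpa using h2
  have hcard1 : 0 < (Finset.univ.erase p₀).card := Finset.card_pos.mpr ⟨_, hS⟩
  have : (0 : ℤ) < (((Finset.univ.erase p₀).card : ℕ) : ℤ) := by exact_mod_cast hcard1
  omega

end

end Fermat.Agent.G1.IG3
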